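import Fermat.Agent.S44.BLR.OddSpan
import Fermat.Agent.LR.NonEis.Main

/-!
# S44 [B] BLR, E-side, the span half (helper24, second of helper19 on (B-E))

`s44be_span_of_det` : `W` an integral Weierstrass model with `Δ ≠ 0`, `p` an odd prime with
`W[p](ℚ̄)` irreducible, `c ∈ G_ℚ` an involution with `det ρ̄(c) = -1` on `W[p]`.  Then the
operators `ρ̄(σ)` span `End_{𝔽_p} W[p]`.  Here
`ρ̄ = galoisRepModuleEnd (K := ℚ̄) ℚ (W.map (Int.castRingHom ℚ)) p`, the Prelude representation on
`Submodule.torsionBy ℤ _ p` with its Prelude `ZMod p`-module structure.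
-/

set_option autoImplicit false
set_option linter.style.haveILetI false

namespace Fermat.Agent.S44

open WeierstrassCurve WeierstrassCurve.Affine WeierstrassCurve.Affine.Point Fermat.Agent.S13

/-- **irreducible + odd ⟹ the Galois image spans `End W[p]`.** -/
theorem s44be_span_of_det (W : WeierstrassCurve ℤ) (hΔ : W.Δ ≠ 0) (p : ℕ) [Fact p.Prime]
    (hp2 : p ≠ 2) (hirr : W.ModRepIsIrreducible p)
    (c : AlgebraicClosure ℚ ≃ₐ[ℚ] AlgebraicClosure ℚ) (hc : c * c = 1)
    (hdet : LinearMap.det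
      (galoisRepModuleEnd (K := AlgebraicClosure ℚ) ℚ (W.map (Int.castRingHom ℚ)) p c) = -1) :
    Submodule.span (ZMod p)
      (Set.range (galoisRepModuleEnd (K := AlgebraicClosure ℚ) ℚ
        (W.map (Int.castRingHom ℚ)) p)) = ⊤ := by
  have hp : p.Prime := Fact.out
  have hΔ' := Fermat.Agent.LR.lrv_Δ_ne_zero W hΔ
  have hV := ld_finrank_torsionBy (K := AlgebraicClosure ℚ) (W.map (Int.castRingHom ℚ)) hΔ' hp2
  have h2 : (2 : ZMod p) ≠ 0 := by
    intro h
    have h1 : ((2 : ℕ) : ZMod p) = 0 := by exact_mod_cast h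
    rw [ZMod.natCast_eq_zero_iff] at h1
    have := Nat.le_of_dvd (by norm_num) h1
    have := hp.two_le
    omega
  refine s44bm_span_top_of_odd hV h2 _ ?_ c hc hdet
  intro N hN
  refine hirr.2 N ?_
  intro σ x hx
  have := hN σ x hx
  rwa [galoisRepModuleEnd_apply] at this

end Fermat.Agent.S44
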