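/-
S44, cell [B] BLR, SUB (B-E) (helper19 for helper18): THE `E`-SIDE.  Prefix `s44be_`.

`V := W[p](Qbar) = Submodule.torsionBy ℤ ((W_ℚ)⁄Qbar).Point p` with the Prelude `ZMod p`-structure,
`ρV := galoisRepModuleEnd ℚ W_ℚ p`.  If a normalised eigenform `f` of level `N` is congruent to `W`
modulo a maximal ideal `𝔪 ∋ p` of `Zbar` at the good primes, and `W[p]` is irreducible, `p` odd:

* `s44be_frob_rel`        : Eichler–Shimura on `W[p]` (from `s58fa_frobSeam`);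
* `s44be_exists_nonscalar`: some `ρV σ₀` is not a scalar (irreducibility);
* `s44be_trace_det_abs`   : comparison (`s58z_main` + Chebotarev `s56c_exists`) with a residual
                            representation over `k ⊇ 𝔽_p` with the right Frobenius polynomials;
* `s44be_trace_det_frob`  : `tr ρV(Frob_ℓ) = a_ℓ(W)`, `det ρV(Frob_ℓ) = ℓ` (via `ρ̄_f`, S29);
* `s44be_det_conj`        : `det ρV(c) = -1` (Chebotarev + `μ_p`);
* `s44be_main`            : the output consumed by [B]: trace/det at Frobenius and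
                            `span (range ρV) = ⊤` (helper24's `s44be_span_of_det`).
-/
import Mathlib
import Fermat.Agent.S29
import Fermat.Agent.S44.BLR.ESpan
import Fermat.Agent.S58.Frob.Seam
import Fermat.Agent.S58.CharpolyCmp
import Fermat.Agent.S58.Top.Glue
import Fermat.Agent.S56.Cheb.Exists
import Fermat.Agent.JT3.Pack.Res.S42
import Fermat.Agent.JT3.Algebra.CycloAdic

set_option autoImplicit false
set_option linter.style.haveILetI false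
set_option linter.unusedSectionVars false

noncomputable section

namespace Fermat.Agent.S44

open Polynomial WeierstrassCurve WeierstrassCurve.Affine WeierstrassCurve.Affine.Point
open Fermat.Agent.S58 Fermat.Agent.S13 Fermat.Agent.JT3
open scoped TensorProduct

local notation "Qb" => AlgebraicClosure ℚ
local notation "GQ" => (AlgebraicClosure ℚ ≃ₐ[ℚ] AlgebraicClosure ℚ)

section BC

variable {F k : Type} [Field F] [Field k] [Algebra F k] {V : Type} [AddCommGroup V] [Module F V]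
  {G : Type} [Group G]

/-- the base change of a representation -/
def s44be_bc (k : Type) [Field k] [Algebra F k] (ρ : G →* Module.End F V) :
    G →* Module.End k (k ⊗[F] V) where
  toFun σ := (ρ σ).baseChange k
  map_one' := by rw [map_one]; exact LinearMap.baseChange_one (R := F) (A := k) (M := V)
  map_mul' σ τ := by rw [map_mul]; exact LinearMap.baseChange_mul _ _

theorem s44be_bc_apply (ρ : G →* Module.End F V) (σ : G) :
    s44be_bc k ρ σ = (ρ σ).baseChange k := rfl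

/-- base change of a quadratic relation -/
theorem s44be_bc_rel (ρ : G →* Module.End F V) (σ : G) (a b : F)
    (h : ρ σ * ρ σ - a • ρ σ + b • (1 : Module.End F V) = 0) :
    aeval (s44be_bc k ρ σ) (X ^ 2 - C (algebraMap F k a) * X + C (algebraMap F k b) : k[X]) = 0 := by
  have h1 := congrArg (LinearMap.baseChange k) h
  rw [LinearMap.baseChange_add, LinearMap.baseChange_sub, LinearMap.baseChange_smul,
    LinearMap.baseChange_smul, LinearMap.baseChange_mul, LinearMap.baseChange_one,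
    LinearMap.baseChange_zero] at h1
  have e : ∀ (r : F) (g : Module.End k (k ⊗[F] V)), r • g = algebraMap F k r • g := fun r g => by
    rw [algebraMap_smul]
  rw [e, e] at h1
  have e2 : ∀ c : k, algebraMap k (Module.End k (k ⊗[F] V)) c = c • 1 := fun c =>
    Algebra.algebraMap_eq_smul_one c
  rw [map_add, map_sub, map_mul, map_pow, aeval_X, aeval_C, aeval_C, e2, e2, smul_mul_assoc,
    one_mul, pow_two, s44be_bc_apply]
  exact h1

end BC

section ES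

variable (W : WeierstrassCurve ℤ) (p : ℕ) [Fact p.Prime]

/-- **Eichler–Shimura on `W[p]`** -/
theorem s44be_frob_rel {ℓ : ℕ} (hℓ : ℓ.Prime) (hgood : ¬ (ℓ : ℤ) ∣ W.Δ) (hne : ℓ ≠ p)
    (A : ValuationSubring Qb) (hA : A.LiesOverPrime ℓ) (τ : GQ) (hτ : A.IsFrobeniusAt τ ℓ) :
    galoisRepModuleEnd (K := Qb) ℚ (s58_WQ W) p τ * galoisRepModuleEnd (K := Qb) ℚ (s58_WQ W) p τ
      - ((W.apOfModel ℓ : ℤ) : ZMod p) • galoisRepModuleEnd (K := Qb) ℚ (s58_WQ W) p τ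
      + ((ℓ : ℕ) : ZMod p) • (1 : Module.End (ZMod p) (Submodule.torsionBy ℤ (s58_E W) p)) = 0 := by
  have hpp : p.Prime := Fact.out
  refine LinearMap.ext fun x => Subtype.ext ?_
  have hcop : p.Coprime ℓ := (Nat.coprime_primes hpp hℓ).mpr (Ne.symm hne)
  have hx : p • (x : s58_E W) = 0 := by
    have := x.2
    rwa [Submodule.mem_torsionBy_iff, natCast_zsmul] at this
  have h := s58fa_frobSeam W ℓ hℓ hgood A hA τ hτ p (x : s58_E W) hcop hx
  rw [LinearMap.add_apply, LinearMap.sub_apply, LinearMap.smul_apply, LinearMap.smul_apply,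
    Module.End.mul_apply, Module.End.one_apply, Int.cast_smul_eq_zsmul, Nat.cast_smul_eq_nsmul,
    galoisRepModuleEnd_apply, galoisRepModuleEnd_apply]
  rw [← natCast_zsmul]
  exact h

/-- some `σ` acts on `W[p]` by a non-scalar -/
theorem s44be_exists_nonscalar (hΔ : W.Δ ≠ 0) (hp2 : p ≠ 2) (hirr : W.ModRepIsIrreducible p) :
    ∃ σ : GQ, ∀ a : ZMod p, galoisRepModuleEnd (K := Qb) ℚ (s58_WQ W) p σ ≠
      a • (1 : Module.End (ZMod p) (Submodule.torsionBy ℤ (s58_E W) p)) := by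
  by_contra hcon
  push Not at hcon
  obtain ⟨hnt, hN⟩ := hirr
  obtain ⟨x, hx⟩ := exists_ne (0 : Submodule.torsionBy ℤ (s58_E W) p)
  have hstable : IsGaloisStable ℚ (Submodule.span (ZMod p) {x}) := by
    intro σ y hy
    obtain ⟨c, rfl⟩ := Submodule.mem_span_singleton.mp hy
    obtain ⟨a, ha⟩ := hcon σ
    have h1 : σ • x = a • x := by
      have := LinearMap.congr_fun ha x
      rwa [galoisRepModuleEnd_apply, LinearMap.smul_apply, Module.End.one_apply] at this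
    have h2 : σ • (c • x) = c • (σ • x) := by
      have := (galoisRepModuleEnd (K := Qb) ℚ (s58_WQ W) p σ).map_smul c x
      rwa [galoisRepModuleEnd_apply, galoisRepModuleEnd_apply] at this
    rw [h2, h1]
    exact Submodule.smul_mem _ _ (Submodule.smul_mem _ _ (Submodule.mem_span_singleton_self x))
  have h2 := ld_finrank_torsionBy (K := Qb) (s58_WQ W) (s58top_Δ_ne_zero hΔ) hp2
  rcases hN _ hstable with h | h
  · exact hx ((Submodule.span_singleton_eq_bot).mp h)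
  · have h3 := finrank_span_singleton (K := ZMod p) hx
    rw [h, finrank_top] at h3
    exact absurd (h2.symm.trans h3) (by norm_num)

end ES

section Main

/-- a transport of a monoid hom along an agreement on a finite level -/
theorem s44be_eq_of_agree {M : Type} [Monoid M] (ρ : GQ →* M) (L : IntermediateField ℚ Qb)
    (h : ∀ σ : GQ, (∀ x ∈ L, σ x = x) → ρ σ = 1) (g τ : GQ) (hτg : ∀ x ∈ L, τ x = g x) :
    ρ τ = ρ g := by
  have hfix : ∀ x ∈ L, (g⁻¹ * τ) x = x := by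
    intro x hx
    rw [AlgEquiv.mul_apply, hτg x hx]
    show (g⁻¹ * g) x = x
    rw [inv_mul_cancel]
    rfl
  calc ρ τ = ρ (g * (g⁻¹ * τ)) := by rw [mul_inv_cancel_left]
    _ = ρ g := by rw [map_mul, h _ hfix, mul_one]

/-- the finite set of bad primes -/
def s44be_bad (W : WeierstrassCurve ℤ) (p N : ℕ) : Finset ℕ :=
  {p} ∪ N.primeFactors ∪ W.Δ.natAbs.primeFactors

theorem s44be_not_mem_bad {W : WeierstrassCurve ℤ} (hΔ : W.Δ ≠ 0) {p N : ℕ} (hN : N ≠ 0) {ℓ : ℕ}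
    (hℓ : ℓ.Prime) (h : ℓ ∉ s44be_bad W p N) : ℓ ≠ p ∧ ¬ ℓ ∣ N ∧ ¬ (ℓ : ℤ) ∣ W.Δ := by
  simp only [s44be_bad, Finset.mem_union, Finset.mem_singleton, Nat.mem_primeFactors, not_or,
    not_and] at h
  obtain ⟨⟨h1, h2⟩, h3⟩ := h
  refine ⟨h1, fun hd => h2 hℓ hd hN, fun hd => ?_⟩
  rw [Int.natCast_dvd] at hd
  exact h3 hℓ hd (Int.natAbs_ne_zero.mpr hΔ)

/-- **trace and determinant of a Frobenius on `W[p]`**, abstract form: comparison with a residual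
representation `ρ` over a field `k ⊇ 𝔽_p` whose Frobenius characteristic polynomials at the good
primes are `X² - a_ℓ(W) X + ℓ`. -/
theorem s44be_trace_det_abs (W : WeierstrassCurve ℤ) (hΔ : W.Δ ≠ 0) (p : ℕ) [Fact p.Prime]
    (hp2 : p ≠ 2) (hirr : W.ModRepIsIrreducible p) (N : ℕ) (hN : N ≠ 0)
    {k : Type} [Field k] [Algebra (ZMod p) k] (ρ : ResidualGaloisRep k)
    (hcpf : ∀ ℓ : ℕ, ℓ.Prime → W.IsGoodPrimeFor ℓ → ¬ ℓ ∣ N → ℓ ≠ p →
      ∀ A : ValuationSubring Qb, A.LiesOverPrime ℓ → ∀ τ : GQ, A.IsFrobeniusAt τ ℓ →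
        LinearMap.charpoly (ρ.ρ τ) =
          X ^ 2 - C (algebraMap (ZMod p) k ((W.apOfModel ℓ : ℤ) : ZMod p)) * X
            + C (algebraMap (ZMod p) k ((ℓ : ℕ) : ZMod p)))
    (ℓ : ℕ) (hℓ : ℓ.Prime) (hgood : W.IsGoodPrimeFor ℓ) (hℓN : ¬ ℓ ∣ N) (hℓp : ℓ ≠ p)
    (A : ValuationSubring Qb) (hA : A.LiesOverPrime ℓ) (τ : GQ) (hτ : A.IsFrobeniusAt τ ℓ) :
    LinearMap.trace (ZMod p) _ (galoisRepModuleEnd (K := Qb) ℚ (s58_WQ W) p τ) =
        ((W.apOfModel ℓ : ℤ) : ZMod p) ∧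
      LinearMap.det (galoisRepModuleEnd (K := Qb) ℚ (s58_WQ W) p τ) = ((ℓ : ℕ) : ZMod p) := by
  have hpp : p.Prime := Fact.out
  have hodd : Odd p := hpp.odd_of_ne_two hp2
  have hΔ' := s58top_Δ_ne_zero hΔ
  have hV := ld_finrank_torsionBy (K := Qb) (s58_WQ W) hΔ' hp2
  haveI : Module.Finite (ZMod p) (Submodule.torsionBy ℤ ((s58_WQ W)⁄Qb).Point p) :=
    Module.finite_of_finrank_eq_succ hV
  have hV' : Module.finrank k (k ⊗[ZMod p] (Submodule.torsionBy ℤ ((s58_WQ W)⁄Qb).Point p)) = 2 := by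
    rw [Module.finrank_baseChange, hV]
  obtain ⟨L1, hL1, h1⟩ := ρ.factorsThroughFiniteLevel
  haveI : Finite (Submodule.torsionBy ℤ ((s58_WQ W)⁄Qb).Point p) :=
    ld_finite_torsionBy (s58_WQ W) hΔ' hodd
  obtain ⟨L2, hL2, h2⟩ := prs_torsion_level (s58_WQ W) p
  haveI := hL1
  haveI := hL2
  have hL : FiniteDimensional ℚ ↥(L1 ⊔ L2) := IntermediateField.finiteDimensional_sup L1 L2
  -- every `σ` is killed
  have hkill : ∀ σ : GQ, aeval (s44be_bc k (galoisRepModuleEnd (K := Qb) ℚ (s58_WQ W) p) σ)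
      (LinearMap.charpoly (ρ.ρ σ)) = 0 := by
    intro σ
    obtain ⟨ℓ, A, τ, hℓ, hℓS, hA, hτ, hτσ⟩ :=
      Fermat.Agent.S56.s56c_exists (L1 ⊔ L2) hL (s44be_bad W p N) σ
    obtain ⟨hℓp, hℓN, hg⟩ := s44be_not_mem_bad hΔ hN hℓ hℓS
    have e1 : ρ.ρ τ = ρ.ρ σ := s44be_eq_of_agree ρ.ρ L1 h1 σ τ fun x hx =>
      hτσ x ((le_sup_left : L1 ≤ L1 ⊔ L2) hx)
    have e2 : galoisRepModuleEnd (K := Qb) ℚ (s58_WQ W) p τ =
        galoisRepModuleEnd (K := Qb) ℚ (s58_WQ W) p σ :=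
      s44be_eq_of_agree _ L2 h2 σ τ fun x hx => hτσ x ((le_sup_right : L2 ≤ L1 ⊔ L2) hx)
    rw [← e1, hcpf ℓ hℓ hg hℓN hℓp A hA τ hτ]
    have := s44be_bc_rel (k := k) (galoisRepModuleEnd (K := Qb) ℚ (s58_WQ W) p) τ _ _
      (s44be_frob_rel W p hℓ hg hℓp A hA τ hτ)
    rw [s44be_bc_apply] at this ⊢
    rw [← e2]
    exact this
  -- a non-scalar element
  obtain ⟨σ₀, hσ₀⟩ := s44be_exists_nonscalar W p hΔ hp2 hirr
  have hσ₀' : ∀ s : k, s44be_bc k (galoisRepModuleEnd (K := Qb) ℚ (s58_WQ W) p) σ₀ ≠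
      s • (1 : Module.End k (k ⊗[ZMod p] (Submodule.torsionBy ℤ ((s58_WQ W)⁄Qb).Point p))) := by
    intro s hs
    obtain ⟨a, ha⟩ := s58top_scalar_of_baseChange (A := ZMod p) (B := k)
      (algebraMap (ZMod p) k).injective
      (Module.finBasisOfFinrankEq (ZMod p) _ hV) _ s hs
    exact hσ₀ a ha
  have hmain := s58z_main ρ.finrank_eq hV' ρ.ρ
    (s44be_bc k (galoisRepModuleEnd (K := Qb) ℚ (s58_WQ W) p)) hkill σ₀ hσ₀' τ
  rw [hcpf ℓ hℓ hgood hℓN hℓp A hA τ hτ, s44be_bc_apply, LinearMap.charpoly_baseChange] at hmain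
  refine prs_trace_det_of_charpoly hV _ _ _ ?_
  apply Polynomial.map_injective (algebraMap (ZMod p) k) (algebraMap (ZMod p) k).injective
  rw [← hmain]
  simp only [Polynomial.map_add, Polynomial.map_sub, Polynomial.map_mul, Polynomial.map_pow,
    Polynomial.map_X, Polynomial.map_C]

/-- **trace and determinant of a Frobenius on `W[p]`** from a congruence with an eigenform. -/
theorem s44be_trace_det_frob (W : WeierstrassCurve ℤ) (hΔ : W.Δ ≠ 0) (p : ℕ) [Fact p.Prime]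
    (hp2 : p ≠ 2) (hirr : W.ModRepIsIrreducible p) {N : ℕ} [NeZero N]
    {f : CuspForm (CongruenceSubgroup.Gamma0 N) 2} (hf : f.IsNormalizedEigenform)
    (𝔪 : Ideal (integralClosure ℤ ℂ)) (h𝔪 : 𝔪.IsMaximal) (hp𝔪 : (p : integralClosure ℤ ℂ) ∈ 𝔪)
    (hcong : ∀ ℓ : ℕ, ℓ.Prime → W.IsGoodPrimeFor ℓ → ¬ ℓ ∣ N → ℓ ≠ p →
      ∃ a : integralClosure ℤ ℂ, (a : ℂ) = ModularFormClass.qCoeff f ℓ ∧
        a - ((W.apOfModel ℓ : ℤ) : integralClosure ℤ ℂ) ∈ 𝔪)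
    (ℓ : ℕ) (hℓ : ℓ.Prime) (hgood : W.IsGoodPrimeFor ℓ) (hℓN : ¬ ℓ ∣ N) (hℓp : ℓ ≠ p)
    (A : ValuationSubring Qb) (hA : A.LiesOverPrime ℓ) (τ : GQ) (hτ : A.IsFrobeniusAt τ ℓ) :
    LinearMap.trace (ZMod p) _ (galoisRepModuleEnd (K := Qb) ℚ (s58_WQ W) p τ) =
        ((W.apOfModel ℓ : ℤ) : ZMod p) ∧
      LinearMap.det (galoisRepModuleEnd (K := Qb) ℚ (s58_WQ W) p τ) = ((ℓ : ℕ) : ZMod p) := by
  have hpp : p.Prime := Fact.out
  letI : Field (integralClosure ℤ ℂ ⧸ 𝔪) := Ideal.Quotient.field 𝔪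
  haveI hchar : CharP (integralClosure ℤ ℂ ⧸ 𝔪) p := by
    rw [CharP.charP_iff_prime_eq_zero hpp]
    have : ((p : integralClosure ℤ ℂ ⧸ 𝔪)) = Ideal.Quotient.mk 𝔪 (p : integralClosure ℤ ℂ) :=
      (map_natCast (Ideal.Quotient.mk 𝔪) p).symm
    rw [this, Ideal.Quotient.eq_zero_iff_mem]
    exact hp𝔪
  letI : Algebra (ZMod p) (integralClosure ℤ ℂ ⧸ 𝔪) := ZMod.algebra _ p
  obtain ⟨ρ, hatt, -⟩ :=
    Fermat.Agent.S29.result hf hpp (k := integralClosure ℤ ℂ ⧸ 𝔪) (Ideal.Quotient.mk 𝔪)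
  have hℓK : ∀ ℓ : ℕ, ℓ.Prime → ℓ ≠ p → ((ℓ : integralClosure ℤ ℂ ⧸ 𝔪)) ≠ 0 := by
    intro ℓ hℓ hℓp h0
    rw [CharP.cast_eq_zero_iff (integralClosure ℤ ℂ ⧸ 𝔪) p] at h0
    exact hℓp ((Nat.prime_dvd_prime_iff_eq hpp hℓ).mp h0).symm
  refine s44be_trace_det_abs W hΔ p hp2 hirr N (NeZero.ne N) ρ ?_ ℓ hℓ hgood hℓN hℓp A hA τ hτ
  intro ℓ hℓ hg hℓN hℓp A hA τ hτ
  obtain ⟨a, ha, hcp⟩ := hatt ℓ hℓ hℓN (hℓK ℓ hℓ hℓp) A hA τ hτ
  obtain ⟨a', ha', hmem⟩ := hcong ℓ hℓ hg hℓN hℓp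
  have haa : a = a' := Subtype.ext (ha.trans ha'.symm)
  have hφ : Ideal.Quotient.mk 𝔪 a =
      algebraMap (ZMod p) (integralClosure ℤ ℂ ⧸ 𝔪) ((W.apOfModel ℓ : ℤ) : ZMod p) := by
    rw [map_intCast, ← map_intCast (Ideal.Quotient.mk 𝔪), haa]
    exact (Ideal.Quotient.eq).mpr hmem
  rw [hcp, hφ, map_natCast (algebraMap (ZMod p) (integralClosure ℤ ℂ ⧸ 𝔪))]

/-- a primitive `p`-th root of unity in `ℚ̄` -/
theorem s44be_exists_primitiveRoot (p : ℕ) [Fact p.Prime] : ∃ ζ : Qb, IsPrimitiveRoot ζ p := by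
  have hpp : p.Prime := Fact.out
  haveI : NeZero ((p : ℕ) : Qb) := ⟨by exact_mod_cast hpp.ne_zero⟩
  have hdeg : (Polynomial.cyclotomic p Qb).degree ≠ 0 := by
    rw [Polynomial.degree_cyclotomic]
    exact_mod_cast (Nat.totient_pos.mpr hpp.pos).ne'
  obtain ⟨ζ, hζ⟩ := IsAlgClosed.exists_root (Polynomial.cyclotomic p Qb) hdeg
  exact ⟨ζ, Polynomial.isRoot_cyclotomic_iff.mp hζ⟩

/-- **oddness of `W[p]`**: `det ρ̄(c) = -1`, from `det ρ̄(Frob_ℓ) = ℓ` and Chebotarev. -/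
theorem s44be_det_conj (W : WeierstrassCurve ℤ) (hΔ : W.Δ ≠ 0) (p : ℕ) [Fact p.Prime]
    (hp2 : p ≠ 2) (N : ℕ) (hN : N ≠ 0)
    (hfrob : ∀ ℓ : ℕ, ℓ.Prime → W.IsGoodPrimeFor ℓ → ¬ ℓ ∣ N → ℓ ≠ p →
      ∀ A : ValuationSubring Qb, A.LiesOverPrime ℓ → ∀ τ : GQ, A.IsFrobeniusAt τ ℓ →
        LinearMap.det (galoisRepModuleEnd (K := Qb) ℚ (s58_WQ W) p τ) = ((ℓ : ℕ) : ZMod p)) :
    LinearMap.det (galoisRepModuleEnd (K := Qb) ℚ (s58_WQ W) p complexConjugation) = -1 := by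
  have hpp : p.Prime := Fact.out
  have hodd : Odd p := hpp.odd_of_ne_two hp2
  have hΔ' := s58top_Δ_ne_zero hΔ
  haveI : Finite (Submodule.torsionBy ℤ ((s58_WQ W)⁄Qb).Point p) :=
    ld_finite_torsionBy (s58_WQ W) hΔ' hodd
  obtain ⟨L2, hL2, h2⟩ := prs_torsion_level (s58_WQ W) p
  obtain ⟨ζ, hζ⟩ := s44be_exists_primitiveRoot p
  haveI := hL2
  haveI : Algebra.IsAlgebraic ℚ Qb := AlgebraicClosure.isAlgebraic ℚ
  haveI : FiniteDimensional ℚ ↥(IntermediateField.adjoin ℚ {ζ}) :=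
    IntermediateField.adjoin.finiteDimensional (Algebra.IsIntegral.isIntegral ζ)
  have hL : FiniteDimensional ℚ ↥(L2 ⊔ IntermediateField.adjoin ℚ {ζ}) :=
    IntermediateField.finiteDimensional_sup _ _
  obtain ⟨ℓ, A, τ, hℓ, hℓS, hA, hτ, hτc⟩ :=
    Fermat.Agent.S56.s56c_exists (L2 ⊔ IntermediateField.adjoin ℚ {ζ}) hL (s44be_bad W p N)
      complexConjugation
  obtain ⟨hℓp, hℓN, hg⟩ := s44be_not_mem_bad hΔ hN hℓ hℓS
  have e2 : galoisRepModuleEnd (K := Qb) ℚ (s58_WQ W) p τ =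
      galoisRepModuleEnd (K := Qb) ℚ (s58_WQ W) p complexConjugation :=
    s44be_eq_of_agree _ L2 h2 complexConjugation τ fun x hx =>
      hτc x ((le_sup_left : L2 ≤ L2 ⊔ IntermediateField.adjoin ℚ {ζ}) hx)
  have hζL : ζ ∈ L2 ⊔ IntermediateField.adjoin ℚ {ζ} :=
    (le_sup_right : IntermediateField.adjoin ℚ {ζ} ≤ L2 ⊔ IntermediateField.adjoin ℚ {ζ})
      (IntermediateField.mem_adjoin_simple_self ℚ ζ)
  have hζp : ζ ^ p = 1 := hζ.pow_eq_one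
  have h3 : τ ζ = ζ ^ ℓ :=
    cya_frob_rootsOfUnity p hℓ hℓp A hA τ hτ 1 (by rw [pow_one]; exact hζp)
  have h4 : complexConjugation ζ = ζ⁻¹ := cya_complexConjugation_rootsOfUnity hpp.ne_zero hζp
  have h5 : ζ ^ (ℓ + 1) = 1 := by
    have hζ0 : ζ ≠ 0 := hζ.ne_zero hpp.ne_zero
    rw [pow_succ, ← h3, hτc ζ hζL, h4, inv_mul_cancel₀ hζ0]
  have h6 : p ∣ ℓ + 1 := hζ.dvd_of_pow_eq_one _ h5
  have h7 : ((ℓ : ℕ) : ZMod p) = -1 := by
    have : ((ℓ + 1 : ℕ) : ZMod p) = 0 := (ZMod.natCast_eq_zero_iff _ _).mpr h6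
    rw [Nat.cast_add, Nat.cast_one] at this
    exact eq_neg_of_add_eq_zero_left this
  rw [← e2, hfrob ℓ hℓ hg hℓN hℓp A hA τ hτ, h7]

/-- **(B-E): the `E`-side of [B] BLR.** -/
theorem s44be_main (W : WeierstrassCurve ℤ) (hΔ : W.Δ ≠ 0) (p : ℕ) [Fact p.Prime] (hp2 : p ≠ 2)
    (hirr : W.ModRepIsIrreducible p) {N : ℕ} [NeZero N]
    {f : CuspForm (CongruenceSubgroup.Gamma0 N) 2} (hf : f.IsNormalizedEigenform)
    (𝔪 : Ideal (integralClosure ℤ ℂ)) (h𝔪 : 𝔪.IsMaximal) (hp𝔪 : (p : integralClosure ℤ ℂ) ∈ 𝔪)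
    (hcong : ∀ ℓ : ℕ, ℓ.Prime → W.IsGoodPrimeFor ℓ → ¬ ℓ ∣ N → ℓ ≠ p →
      ∃ a : integralClosure ℤ ℂ, (a : ℂ) = ModularFormClass.qCoeff f ℓ ∧
        a - ((W.apOfModel ℓ : ℤ) : integralClosure ℤ ℂ) ∈ 𝔪) :
    (∀ ℓ : ℕ, ℓ.Prime → W.IsGoodPrimeFor ℓ → ¬ ℓ ∣ N → ℓ ≠ p →
      ∀ A : ValuationSubring s58_Qb, A.LiesOverPrime ℓ → ∀ τ : s58_G, A.IsFrobeniusAt τ ℓ →
        LinearMap.trace (ZMod p) _ (galoisRepModuleEnd (K := s58_Qb) ℚ (s58_WQ W) p τ) =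
            ((W.apOfModel ℓ : ℤ) : ZMod p) ∧
          LinearMap.det (galoisRepModuleEnd (K := s58_Qb) ℚ (s58_WQ W) p τ) =
            ((ℓ : ℕ) : ZMod p)) ∧
      Submodule.span (ZMod p)
        (Set.range (galoisRepModuleEnd (K := s58_Qb) ℚ (s58_WQ W) p)) = ⊤ := by
  have hfrob := s44be_trace_det_frob W hΔ p hp2 hirr hf 𝔪 h𝔪 hp𝔪 hcong
  refine ⟨hfrob, ?_⟩
  refine s44be_span_of_det W hΔ p hp2 hirr complexConjugation complexConjugation_mul_self ?_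
  exact s44be_det_conj W hΔ p hp2 N (NeZero.ne N) fun ℓ hℓ hg hℓN hℓp A hA τ hτ =>
    (hfrob ℓ hℓ hg hℓN hℓp A hA τ hτ).2

end Main

end Fermat.Agent.S44
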