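/-
S44, cell [B] BLR (helper18), file 3: THE `J₀(N)`-SIDE.  Prefix `s44b_`.

* `s44b_ME N p S a` : the subgroup of `J₀(N)(ℚ̄)[p]` on which `T_ℓ = a ℓ` for all primes `ℓ ∤ N`,
  `ℓ ∉ S`; it is a `ZMod p`-module with a Galois action `s44b_alpha : G_ℚ →* End_{ZMod p}`;
* `s44b_alpha_frob`  : Eichler–Shimura on `M_E`: `φ² - a_ℓ φ + ℓ = 0` for a Frobenius `φ` at a good
  `ℓ`;
* `s44b_alpha_level` : the action on `M_E` factors through a finite level;
* `s44b_hCH`         : Chebotarev: if `ρV` (finite level) has trace `a ℓ` and determinant `ℓ` at the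
  Frobenius elements of the good primes, every `g` satisfies on `M_E` the characteristic polynomial
  of `ρV g` (the hypothesis `hCH` of `ffc_blr_end` / `s44bm_copy`).
-/
import Mathlib
import Fermat.Agent.JT3.Tate.Inputs
import Fermat.Agent.S56.Cheb.Exists

set_option autoImplicit false
set_option linter.unusedSectionVars false
set_option linter.style.haveILetI false
set_option synthInstance.maxHeartbeats 400000
set_option maxHeartbeats 1000000

noncomputable section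

namespace Fermat.Agent.S44

open Fermat.Agent.JT3 ModularCurve

local notation "Qb" => AlgebraicClosure ℚ
local notation "GQ" => (AlgebraicClosure ℚ ≃ₐ[ℚ] AlgebraicClosure ℚ)

variable (N p : ℕ) [NeZero N] (S : Finset ℕ) (a : ℕ → ℤ)

/-- the part of `J₀(N)(ℚ̄)[p]` on which `T_ℓ = a ℓ` for the primes `ℓ ∤ N`, `ℓ ∉ S` -/
def s44b_ME : AddSubgroup (JZero N) where
  carrier := {z | p • z = 0 ∧ ∀ (ℓ : ℕ) (hℓ : ℓ.Prime), ¬ ℓ ∣ N → ℓ ∉ S →
    heckeOperatorBar N ⟨ℓ, hℓ⟩ z = a ℓ • z}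
  zero_mem' := ⟨nsmul_zero _, fun ℓ hℓ _ _ => by rw [map_zero, zsmul_zero]⟩
  add_mem' := fun {x y} hx hy =>
    ⟨by rw [nsmul_add, hx.1, hy.1, add_zero], fun ℓ hℓ h1 h2 => by
      rw [map_add, hx.2 ℓ hℓ h1 h2, hy.2 ℓ hℓ h1 h2, zsmul_add]⟩
  neg_mem' := fun {x} hx =>
    ⟨by rw [neg_nsmul, hx.1, neg_zero], fun ℓ hℓ h1 h2 => by
      rw [map_neg, hx.2 ℓ hℓ h1 h2, zsmul_neg]⟩

variable {N p S a}

theorem s44b_mem_ME {z : JZero N} :
    z ∈ s44b_ME N p S a ↔ p • z = 0 ∧ ∀ (ℓ : ℕ) (hℓ : ℓ.Prime), ¬ ℓ ∣ N → ℓ ∉ S →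
      heckeOperatorBar N ⟨ℓ, hℓ⟩ z = a ℓ • z := Iff.rfl

theorem s44b_ME_smul_mem {z : JZero N} (hz : z ∈ s44b_ME N p S a) (σ : GQ) :
    σ • z ∈ s44b_ME N p S a := by
  refine ⟨?_, fun ℓ hℓ h1 h2 => ?_⟩
  · have h : σ • p • z = p • σ • z :=
      map_nsmul (DistribMulAction.toAddMonoidHom (JZero N) σ) p z
    rw [← h, hz.1]
    exact smul_zero (A := JZero N) σ
  · have h : σ • a ℓ • z = a ℓ • σ • z :=
      map_zsmul (DistribMulAction.toAddMonoidHom (JZero N) σ) (a ℓ) z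
    rw [← egh_comm N ⟨ℓ, hℓ⟩ σ z, hz.2 ℓ hℓ h1 h2, h]

variable (N p S a)

instance s44b_ME_module : Module (ZMod p) ↥(s44b_ME N p S a) :=
  AddCommGroup.zmodModule fun x => Subtype.ext x.2.1

/-- the action of `σ` on `M_E` -/
def s44b_act (σ : GQ) : ↥(s44b_ME N p S a) →+ ↥(s44b_ME N p S a) where
  toFun x := ⟨σ • x.1, s44b_ME_smul_mem x.2 σ⟩
  map_zero' := Subtype.ext (smul_zero σ)
  map_add' x y := Subtype.ext (smul_add σ x.1 y.1)

/-- the Galois representation on `M_E` -/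
def s44b_alpha : GQ →* Module.End (ZMod p) ↥(s44b_ME N p S a) where
  toFun σ := (s44b_act N p S a σ).toZModLinearMap p
  map_one' := LinearMap.ext fun x => Subtype.ext (one_smul GQ x.1)
  map_mul' σ τ := LinearMap.ext fun x => Subtype.ext (mul_smul σ τ x.1)

variable {N p S a}

theorem s44b_alpha_apply (σ : GQ) (x : ↥(s44b_ME N p S a)) :
    ((s44b_alpha N p S a σ x : ↥(s44b_ME N p S a)) : JZero N) = σ • (x : JZero N) := rfl

variable [Fact p.Prime]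

/-- **Eichler–Shimura on `M_E`** -/
theorem s44b_alpha_frob (hpS : p ∈ S) {ℓ : ℕ} (hℓ : ℓ.Prime) (hℓN : ¬ ℓ ∣ N) (hℓS : ℓ ∉ S)
    (A : ValuationSubring Qb) (hA : A.LiesOverPrime ℓ) (τ : GQ) (hτ : A.IsFrobeniusAt τ ℓ) :
    s44b_alpha N p S a τ * s44b_alpha N p S a τ
      - ((a ℓ : ℤ) : ZMod p) • s44b_alpha N p S a τ
      + ((ℓ : ℕ) : ZMod p) • (1 : Module.End (ZMod p) ↥(s44b_ME N p S a)) = 0 := by
  have hpp : p.Prime := Fact.out
  have hℓp : ℓ ≠ p := fun h => hℓS (h ▸ hpS)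
  have hℓNp : ¬ ℓ ∣ N * p := by
    rw [hℓ.dvd_mul, not_or]
    exact ⟨hℓN, fun h => hℓp ((Nat.prime_dvd_prime_iff_eq hℓ hpp).mp h)⟩
  refine LinearMap.ext fun x => Subtype.ext ?_
  have h := est_frobQuadratic N p (tji_nodeE N) (tji_S18 N) ℓ hℓ hℓNp A hA τ hτ (x : JZero N)
    ⟨1, by rw [pow_one]; exact x.2.1⟩
  rw [(s44b_ME_smul_mem x.2 τ).2 ℓ hℓ hℓN hℓS] at h
  rw [LinearMap.add_apply, LinearMap.sub_apply, LinearMap.smul_apply, LinearMap.smul_apply,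
    Module.End.mul_apply, Module.End.one_apply, Int.cast_smul_eq_zsmul, Nat.cast_smul_eq_nsmul]
  exact h

/-- the action on `M_E` factors through a finite level -/
theorem s44b_alpha_level : GaloisFactorsThroughFiniteLevel (s44b_alpha N p S a) := by
  have hfin : {z : JZero N | p ^ 1 • z = 0}.Finite := Set.finite_coe_iff.mp (tj_finite N p 1)
  haveI := tj_finite N p 1
  haveI : Finite ↥(s44b_ME N p S a) := by
    refine Finite.of_injective (fun x : ↥(s44b_ME N p S a) =>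
      (⟨x.1, by rw [pow_one]; exact x.2.1⟩ : {z : JZero N // p ^ 1 • z = 0})) ?_
    intro x y hxy
    have h3 : (x : JZero N) = y :=
      congrArg (fun w : {z : JZero N // p ^ 1 • z = 0} => (w : JZero N)) hxy
    exact Subtype.ext h3
  have h : ∀ x : ↥(s44b_ME N p S a),
      ∃ L : IntermediateField ℚ Qb, FiniteDimensional ℚ L ∧
        ∀ σ : GQ, (∀ y ∈ L, σ y = y) → σ • (x : JZero N) = x := fun x => egs_exists_fixing N x.1
  choose L hL hfix using h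
  refine ⟨⨆ x, L x, ?_, fun σ hσ => ?_⟩
  · haveI := hL
    exact IntermediateField.finiteDimensional_iSup_of_finite
  · refine LinearMap.ext fun x => Subtype.ext ?_
    exact hfix x σ fun y hy => hσ y ((le_iSup L x : L x ≤ ⨆ x, L x) hy)

/-- **Chebotarev**: every `g` satisfies on `M_E` the characteristic polynomial of `ρV g`. -/
theorem s44b_hCH (hpS : p ∈ S) (hNS : ∀ q : ℕ, q.Prime → q ∣ N → q ∈ S)
    {V : Type} [AddCommGroup V] [Module (ZMod p) V]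
    (ρV : GQ →* Module.End (ZMod p) V) (hlev : GaloisFactorsThroughFiniteLevel ρV)
    (hfrob : ∀ ℓ : ℕ, ℓ.Prime → ¬ ℓ ∣ N → ℓ ∉ S →
      ∀ A : ValuationSubring Qb, A.LiesOverPrime ℓ → ∀ τ : GQ, A.IsFrobeniusAt τ ℓ →
        LinearMap.trace (ZMod p) V (ρV τ) = ((a ℓ : ℤ) : ZMod p) ∧
          LinearMap.det (ρV τ) = ((ℓ : ℕ) : ZMod p)) (g : GQ) :
    s44b_alpha N p S a g * s44b_alpha N p S a g
      - LinearMap.trace (ZMod p) V (ρV g) • s44b_alpha N p S a g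
      + LinearMap.det (ρV g) • (1 : Module.End (ZMod p) ↥(s44b_ME N p S a)) = 0 := by
  obtain ⟨L₁, hL₁, h1⟩ := hlev
  obtain ⟨L₂, hL₂, h2⟩ := s44b_alpha_level (N := N) (p := p) (S := S) (a := a)
  haveI := hL₁
  haveI := hL₂
  have hL : FiniteDimensional ℚ ↥(L₁ ⊔ L₂) := IntermediateField.finiteDimensional_sup L₁ L₂
  obtain ⟨ℓ, A, τ, hℓ, hℓS, hA, hτ, hτg⟩ := Fermat.Agent.S56.s56c_exists (L₁ ⊔ L₂) hL S g
  have hℓN : ¬ ℓ ∣ N := fun h => hℓS (hNS ℓ hℓ h)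
  have hfix : ∀ x ∈ L₁ ⊔ L₂, (g⁻¹ * τ) x = x := by
    intro x hx
    rw [AlgEquiv.mul_apply, hτg x hx]
    show (g⁻¹ * g) x = x
    rw [inv_mul_cancel]
    rfl
  have e1 : ρV τ = ρV g := by
    have := h1 (g⁻¹ * τ) fun x hx => hfix x ((le_sup_left : L₁ ≤ L₁ ⊔ L₂) hx)
    calc ρV τ = ρV (g * (g⁻¹ * τ)) := by rw [mul_inv_cancel_left]
      _ = ρV g := by rw [map_mul, this, mul_one]
  have e2 : s44b_alpha N p S a τ = s44b_alpha N p S a g := by
    have := h2 (g⁻¹ * τ) fun x hx => hfix x ((le_sup_right : L₂ ≤ L₁ ⊔ L₂) hx)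
    calc s44b_alpha N p S a τ = s44b_alpha N p S a (g * (g⁻¹ * τ)) := by
          rw [mul_inv_cancel_left]
      _ = s44b_alpha N p S a g := by rw [map_mul, this, mul_one]
  obtain ⟨ht, hd⟩ := hfrob ℓ hℓ hℓN hℓS A hA τ hτ
  rw [← e1, ← e2, ht, hd]
  exact s44b_alpha_frob hpS hℓ hℓN hℓS A hA τ hτ

end Fermat.Agent.S44
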