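import Mathlib
import Fermat.Agent.FF.Car.BLR

/-!
# S44 [B] BLR, pure algebra (helper24): a nonzero module over `End_F V` contains a copy of `V`

* `s44bm_embed` : `F` a field, `V` with a finite basis, `M ≠ 0` an `F`-module and
  `Φ : End_F V →ₐ[F] End_F M`.  Then there is an injective `F`-linear `j : V → M` with
  `j (f v) = Φ f (j v)` for all `f`, `v`.
* `s44bm_copy` : Boston–Lenstra–Ribet in the form consumed by [B]: `ρV : G →* End_F V`
  (`dim V = 2`) whose image spans `End_F V`, `αM : G →* End_F M` with `M ≠ 0` such that every `g`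
  satisfies on `M` the characteristic polynomial of `ρV g`.  Then `V` embeds `G`-equivariantly
  into `M` (`ffc_blr_end` + `s44bm_embed`).
-/

set_option autoImplicit false

namespace Fermat.Agent.S44

open Module

section Embed

variable {F : Type*} [Field F] {V M : Type*} [AddCommGroup V] [Module F V] [AddCommGroup M]
  [Module F M]

/-- the rank-one endomorphism `w ↦ φ(w) v` composed with `g` -/
theorem s44bm_comp_smulRight (φ : V →ₗ[F] F) (g : Module.End F V) (v : V) :
    g * φ.smulRight v = φ.smulRight (g v) := by
  ext w
  simp [LinearMap.smulRight_apply, Module.End.mul_apply]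

/-- **a nonzero `End_F V`-module contains `V`.** -/
theorem s44bm_embed {ι : Type*} [Fintype ι] [DecidableEq ι] (b : Basis ι F V)
    (Φ : Module.End F V →ₐ[F] Module.End F M) [Nontrivial M] :
    ∃ j : V →ₗ[F] M, Function.Injective j ∧ ∀ (f : Module.End F V) (v : V), j (f v) = Φ f (j v) := by
  classical
  -- the diagonal idempotents sum to one
  have hsum : (∑ i, (b.coord i).smulRight (b i) : Module.End F V) = 1 := by
    apply b.ext
    intro k
    simp only [LinearMap.sum_apply, LinearMap.smulRight_apply, Basis.coord_apply,
      Module.End.one_apply, Basis.repr_self]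
    rw [Finset.sum_eq_single k]
    · simp
    · intro i _ hik
      rw [Finsupp.single_apply, if_neg (Ne.symm hik), zero_smul]
    · intro h; exact absurd (Finset.mem_univ k) h
  obtain ⟨m, hm⟩ := exists_ne (0 : M)
  have hm1 : (∑ i, Φ ((b.coord i).smulRight (b i)) m) = m := by
    rw [← LinearMap.sum_apply, ← map_sum, hsum, map_one, Module.End.one_apply]
  obtain ⟨i, hi⟩ : ∃ i, Φ ((b.coord i).smulRight (b i)) m ≠ 0 := by
    by_contra hcon
    push Not at hcon
    apply hm
    rw [← hm1]
    exact Finset.sum_eq_zero fun i _ => hcon i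
  set m' : M := Φ ((b.coord i).smulRight (b i)) m with hm'
  -- the map
  let j : V →ₗ[F] M :=
    { toFun := fun v => Φ ((b.coord i).smulRight v) m'
      map_add' := fun v w => by
        have : (b.coord i).smulRight (v + w) = (b.coord i).smulRight v + (b.coord i).smulRight w := by
          ext u; simp [LinearMap.smulRight_apply]
        rw [this, map_add, LinearMap.add_apply]
      map_smul' := fun c v => by
        have : (b.coord i).smulRight (c • v) = c • (b.coord i).smulRight v := by
          ext u
          simp only [LinearMap.smulRight_apply, LinearMap.smul_apply]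
          rw [smul_comm]
        rw [this, map_smul, LinearMap.smul_apply, RingHom.id_apply] }
  have hj : ∀ v, j v = Φ ((b.coord i).smulRight v) m' := fun _ => rfl
  have hequiv : ∀ (f : Module.End F V) (v : V), j (f v) = Φ f (j v) := by
    intro f v
    rw [hj, hj, ← s44bm_comp_smulRight, map_mul, Module.End.mul_apply]
  have hbi : j (b i) = m' := by
    rw [hj, hm', ← Module.End.mul_apply, ← map_mul, s44bm_comp_smulRight]
    simp [LinearMap.smulRight_apply]
  refine ⟨j, ?_, hequiv⟩
  rw [← LinearMap.ker_eq_bot, Submodule.eq_bot_iff]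
  intro v hv
  by_contra hv0
  rw [LinearMap.mem_ker] at hv
  -- some coordinate of `v` is nonzero
  obtain ⟨k, hk⟩ : ∃ k, b.repr v k ≠ 0 := by
    by_contra hcon
    push Not at hcon
    apply hv0
    apply b.repr.injective
    ext k
    rw [hcon k, map_zero, Finsupp.zero_apply]
  let g : Module.End F V := ((b.repr v k)⁻¹ • b.coord k).smulRight (b i)
  have hg : g v = b i := by
    simp only [g, LinearMap.smulRight_apply, LinearMap.smul_apply, Basis.coord_apply, smul_eq_mul]
    rw [inv_mul_cancel₀ hk, one_smul]
  have : m' = 0 := by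
    rw [← hbi, ← hg, hequiv, hv, map_zero]
  exact hi this

end Embed

section Copy

variable {F : Type*} [Field F] {G : Type*} [Group G] {V M : Type*} [AddCommGroup V] [Module F V]
  [AddCommGroup M] [Module F M]

/-- **Boston–Lenstra–Ribet, embedding form.** -/
theorem s44bm_copy (b : Basis (Fin 2) F V) (ρV : G →* Module.End F V) (αM : G →* Module.End F M)
    [Nontrivial M]
    (hspan : Submodule.span F (Set.range ρV) = ⊤)
    (hCH : ∀ g, αM g * αM g - LinearMap.trace F V (ρV g) • αM g +
      LinearMap.det (ρV g) • (1 : Module.End F M) = 0) :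
    ∃ j : V →ₗ[F] M, Function.Injective j ∧ ∀ (g : G) (v : V), j (ρV g v) = αM g (j v) := by
  obtain ⟨Φ, hΦ⟩ := Fermat.Agent.FF.ffc_blr_end b ρV αM hspan hCH
  obtain ⟨j, hinj, hj⟩ := s44bm_embed b Φ
  exact ⟨j, hinj, fun g v => by rw [hj, hΦ]⟩

end Copy

end Fermat.Agent.S44
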