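/-
S44, cell [B] BLR (helper18), file 1: the abstract algebra.  Mathlib only.  Prefix `s44b_`.

* `s44b_socle`        : a finite module `M` over a commutative ring with `I M ≠ M` contains a
                        nonzero element killed by `I`;
* `s44b_exists_eigen` : a commutative algebra `A` of endomorphisms of a finite `R`-module `T`, a
                        character `χ₀ : A → K` to a field in which `π = 0`, `T / π T` finite
                        (witnessed by an additive map `f` with finite range whose kernel lies in
                        `π T`): some `x ∉ π T` has `a x ∈ π T` for every `a ∈ ker χ₀`;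
* `s44b_morita`       : a unital algebra map `Φ : End_k V → End_k M`, `V` finite free, `M ≠ 0`,
                        yields an injective `k`-linear `j : V → M` with `j (f v) = Φ f (j v)`.
-/
import Mathlib

set_option autoImplicit false

namespace Fermat.Agent.S44

universe u

section Socle

variable {A : Type*} [CommRing A]

theorem s44b_socle_aux (I : Ideal A) :
    ∀ (n : ℕ) (M : Type u) [AddCommGroup M] [Module A M] [Finite M], Nat.card M = n →
      I • (⊤ : Submodule A M) ≠ ⊤ → ∃ m : M, m ≠ 0 ∧ ∀ a ∈ I, a • m = 0 := by
  intro n
  induction n using Nat.strong_induction_on with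
  | _ n ih =>
    intro M _ _ _ hn hI
    by_cases hall : ∀ a ∈ I, ∀ m : M, a • m = 0
    · have hnt : ∃ m : M, m ≠ 0 := by
        by_contra hcon
        push Not at hcon
        apply hI
        rw [eq_top_iff]
        intro m _
        rw [hcon m]
        exact Submodule.zero_mem _
      obtain ⟨m, hm⟩ := hnt
      exact ⟨m, hm, fun a ha => hall a ha m⟩
    · push Not at hall
      obtain ⟨a, ha, m₀, hm₀⟩ := hall
      set φ : M →ₗ[A] M := LinearMap.lsmul A M a with hφ
      have hφa : ∀ m, φ m = a • m := fun m => rfl
      have hninj : ¬ Function.Injective φ := by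
        intro hinj
        have hsurj : Function.Surjective φ := Finite.injective_iff_surjective.mp hinj
        apply hI
        rw [eq_top_iff]
        intro m _
        obtain ⟨m', rfl⟩ := hsurj m
        rw [hφa]
        exact Submodule.smul_mem_smul ha Submodule.mem_top
      have hnsurj : ¬ Function.Surjective φ := fun h =>
        hninj (Finite.injective_iff_surjective.mpr h)
      have hKlt : Nat.card (LinearMap.ker φ) < n := by
        rw [← hn]
        exact Finite.card_subtype_lt (x := m₀) (fun h => hm₀ (LinearMap.mem_ker.mp h))
      have hRlt : Nat.card (LinearMap.range φ) < n := by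
        rw [← hn]
        have : ∃ m, m ∉ LinearMap.range φ := by
          by_contra hcon
          push Not at hcon
          exact hnsurj fun m => LinearMap.mem_range.mp (hcon m)
        obtain ⟨m, hm⟩ := this
        exact Finite.card_subtype_lt (x := m) hm
      by_cases hIK : I • (⊤ : Submodule A (LinearMap.ker φ)) = ⊤
      · by_cases hIR : I • (⊤ : Submodule A (LinearMap.range φ)) = ⊤
        · exfalso
          have hK' : I • LinearMap.ker φ = LinearMap.ker φ := by
            have := congrArg (Submodule.map (LinearMap.ker φ).subtype) hIK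
            rwa [Submodule.map_smul'', Submodule.map_subtype_top] at this
          have hR' : I • LinearMap.range φ = LinearMap.range φ := by
            have := congrArg (Submodule.map (LinearMap.range φ).subtype) hIR
            rwa [Submodule.map_smul'', Submodule.map_subtype_top] at this
          apply hI
          rw [eq_top_iff]
          intro m _
          have h1 : φ m ∈ I • LinearMap.range φ := by
            rw [hR']
            exact LinearMap.mem_range_self φ m
          rw [LinearMap.range_eq_map, ← Submodule.map_smul''] at h1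
          obtain ⟨m', hm', hmm'⟩ := h1
          have h2 : m - m' ∈ LinearMap.ker φ := by
            rw [LinearMap.mem_ker, map_sub, hmm', sub_self]
          rw [← hK'] at h2
          have h3 : m - m' ∈ I • (⊤ : Submodule A M) :=
            Submodule.smul_mono le_rfl le_top h2
          have h4 := Submodule.add_mem _ hm' h3
          rwa [add_sub_cancel] at h4
        · obtain ⟨r, hr0, hr⟩ := ih _ hRlt (LinearMap.range φ) rfl hIR
          refine ⟨r.1, fun h => hr0 (Subtype.ext h), fun b hb => ?_⟩
          have := congrArg Subtype.val (hr b hb)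
          exact this
      · obtain ⟨r, hr0, hr⟩ := ih _ hKlt (LinearMap.ker φ) rfl hIK
        refine ⟨r.1, fun h => hr0 (Subtype.ext h), fun b hb => ?_⟩
        have := congrArg Subtype.val (hr b hb)
        exact this

/-- **Lemma A**: a finite module `M` with `I M ≠ M` contains a nonzero element killed by `I`. -/
theorem s44b_socle (I : Ideal A) (M : Type*) [AddCommGroup M] [Module A M] [Finite M]
    (hI : I • (⊤ : Submodule A M) ≠ ⊤) : ∃ m : M, m ≠ 0 ∧ ∀ a ∈ I, a • m = 0 :=
  s44b_socle_aux I _ M rfl hI

end Socle

section Eigen

/-- a nonzero class modulo `π` on which the kernel of a character acts by zero -/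
theorem s44b_exists_eigen {R : Type*} [CommRing R] {T : Type*} [AddCommGroup T] [Module R T]
    [Module.Finite R T] (A : Subalgebra R (Module.End R T))
    (hcomm : ∀ a ∈ A, ∀ b ∈ A, a * b = b * a) {K : Type*} [Field K] [Algebra R K]
    (χ₀ : A →ₐ[R] K) (π : R) (hπ : algebraMap R K π = 0)
    {F : Type*} [AddCommGroup F] (f : T →+ F) (hfin : (Set.range f).Finite)
    (hker : ∀ x, f x = 0 → ∃ y, x = π • y) :
    ∃ x : T, (¬ ∃ y, x = π • y) ∧
      ∀ a : A, χ₀ a = 0 → ∃ y, (a : Module.End R T) x = π • y := by
  classical
  letI : CommRing A :=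
    { (inferInstance : Ring A) with
      mul_comm := fun a b => Subtype.ext (hcomm a a.2 b b.2) }
  have hsm : ∀ (a : A) (t : T), a • t = (a : Module.End R T) t := fun _ _ => rfl
  -- the `A`-submodule `π T`
  let P : Submodule A T :=
    { carrier := {x | ∃ y, x = π • y}
      add_mem' := by
        rintro _ _ ⟨y, rfl⟩ ⟨y', rfl⟩
        exact ⟨y + y', (smul_add _ _ _).symm⟩
      zero_mem' := ⟨0, (smul_zero _).symm⟩
      smul_mem' := by
        rintro a _ ⟨y, rfl⟩
        exact ⟨a • y, by rw [hsm, hsm, map_smul]⟩ }
  have hP : ∀ x, x ∈ P ↔ ∃ y, x = π • y := fun _ => Iff.rfl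
  -- `T / π T` is finite
  haveI : Finite (T ⧸ P) := by
    haveI : Finite (Set.range f) := hfin.to_subtype
    have hch : ∀ z : Set.range f, ∃ x, f x = z.1 := fun z => z.2
    choose g hg using hch
    refine Finite.of_surjective (fun z : Set.range f => Submodule.Quotient.mk (g z)) ?_
    intro q
    obtain ⟨x, rfl⟩ := Submodule.Quotient.mk_surjective P q
    refine ⟨⟨f x, x, rfl⟩, ?_⟩
    rw [Submodule.Quotient.eq]
    refine (hP _).mpr (hker _ ?_)
    rw [map_sub, hg, sub_self]
  -- the ideal
  let I : Ideal A := RingHom.ker (χ₀ : A →+* K)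
  have hIne : I • (⊤ : Submodule A (T ⧸ P)) ≠ ⊤ := by
    intro htop
    -- `I T + π T = T`, and `π ∈ I`
    have hπI : algebraMap R A π ∈ I := by
      rw [RingHom.mem_ker]
      show χ₀ (algebraMap R A π) = 0
      rw [AlgHom.commutes, hπ]
    have hPle : P ≤ I • (⊤ : Submodule A T) := by
      rintro _ ⟨y, rfl⟩
      have : π • y = algebraMap R A π • y := by
        rw [hsm]
        rfl
      rw [this]
      exact Submodule.smul_mem_smul hπI Submodule.mem_top
    have htop' : I • (⊤ : Submodule A T) = ⊤ := by
      have h1 := congrArg (Submodule.comap P.mkQ) htop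
      rw [Submodule.comap_top] at h1
      rw [eq_top_iff]
      intro x hx
      have h2 : x ∈ Submodule.comap P.mkQ (I • (⊤ : Submodule A (T ⧸ P))) := by
        rw [h1]; exact hx
      rw [Submodule.mem_comap] at h2
      have h3 : (I • (⊤ : Submodule A (T ⧸ P))) = Submodule.map P.mkQ (I • (⊤ : Submodule A T)) := by
        rw [Submodule.map_smul'', Submodule.map_top, Submodule.range_mkQ]
      rw [h3] at h2
      obtain ⟨x', hx', hxx'⟩ := h2
      have h4 : x - x' ∈ P := by
        rw [← Submodule.Quotient.eq]
        exact hxx'.symm
      have := Submodule.add_mem _ hx' (hPle h4)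
      rwa [add_sub_cancel] at this
    -- Nakayama
    haveI : IsScalarTower R A T := ⟨fun r a t => rfl⟩
    haveI : Module.Finite A T := Module.Finite.of_restrictScalars_finite R A T
    obtain ⟨r, hr1, hr0⟩ := Submodule.exists_sub_one_mem_and_smul_eq_zero_of_fg_of_le_smul I
      (⊤ : Submodule A T) Module.Finite.fg_top (le_of_eq htop'.symm)
    have hr : r = 0 := by
      apply Subtype.ext
      apply LinearMap.ext
      intro t
      exact hr0 t Submodule.mem_top
    rw [hr, zero_sub] at hr1
    have h1 : (1 : A) ∈ I := by
      have := I.neg_mem hr1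
      rwa [neg_neg] at this
    rw [RingHom.mem_ker] at h1
    have h2 : χ₀ (1 : A) = 0 := h1
    rw [map_one] at h2
    exact one_ne_zero h2
  obtain ⟨q, hq0, hq⟩ := s44b_socle I (T ⧸ P) hIne
  obtain ⟨x, rfl⟩ := Submodule.Quotient.mk_surjective P q
  refine ⟨x, fun hx => hq0 ((Submodule.Quotient.mk_eq_zero P).mpr ((hP x).mpr hx)), ?_⟩
  intro a ha
  have h1 := hq a (by rw [RingHom.mem_ker]; exact ha)
  rw [← Submodule.Quotient.mk_smul, Submodule.Quotient.mk_eq_zero] at h1
  exact (hP _).mp h1

end Eigen

section Morita

variable {k : Type*} [Field k] {V M : Type*} [AddCommGroup V] [Module k V] [AddCommGroup M]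
  [Module k M]

/-- a module over a matrix algebra `End_k V` contains a copy of `V` -/
theorem s44b_morita {ι : Type*} [Fintype ι] [DecidableEq ι] [Nontrivial M]
    (b : Module.Basis ι k V) (Φ : Module.End k V →ₐ[k] Module.End k M) :
    ∃ j : V →ₗ[k] M, Function.Injective j ∧
      ∀ (f : Module.End k V) (v : V), j (f v) = Φ f (j v) := by
  -- the elementary endomorphisms
  let E : ι → V → Module.End k V := fun i v => (b.coord i).smulRight v
  have hE : ∀ i v w, E i v w = b.coord i w • v := fun i v w => rfl
  have hsum : ∑ i, E i (b i) = 1 := by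
    apply LinearMap.ext
    intro w
    rw [LinearMap.sum_apply, Module.End.one_apply]
    simp only [hE, Module.Basis.coord_apply]
    exact b.sum_repr w
  obtain ⟨m, hm⟩ := exists_ne (0 : M)
  have hex : ∃ i, Φ (E i (b i)) m ≠ 0 := by
    by_contra hcon
    push Not at hcon
    apply hm
    have h1 : Φ (∑ i, E i (b i)) m = m := by rw [hsum, map_one, Module.End.one_apply]
    rw [← h1, map_sum, LinearMap.sum_apply]
    exact Finset.sum_eq_zero fun i _ => hcon i
  obtain ⟨i, hi⟩ := hex
  set m' : M := Φ (E i (b i)) m with hm'
  have hidem : E i (b i) * E i (b i) = E i (b i) := by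
    apply LinearMap.ext
    intro w
    rw [Module.End.mul_apply, hE, hE, map_smul, Module.Basis.coord_apply,
      Module.Basis.coord_apply, Module.Basis.repr_self, Finsupp.single_eq_same, smul_eq_mul,
      mul_one]
  have hm'fix : Φ (E i (b i)) m' = m' := by
    rw [hm', ← Module.End.mul_apply, ← map_mul, hidem]
  have hcomp : ∀ (f : Module.End k V) (v : V), f * E i v = E i (f v) := by
    intro f v
    apply LinearMap.ext
    intro w
    rw [Module.End.mul_apply, hE, hE, map_smul]
  let j : V →ₗ[k] M :=
    { toFun := fun v => Φ (E i v) m'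
      map_add' := fun v w => by
        have : E i (v + w) = E i v + E i w := by
          apply LinearMap.ext
          intro u
          rw [LinearMap.add_apply, hE, hE, hE, smul_add]
        rw [this, map_add, LinearMap.add_apply]
      map_smul' := fun c v => by
        have : E i (c • v) = c • E i v := by
          apply LinearMap.ext
          intro u
          rw [LinearMap.smul_apply, hE, hE, smul_comm]
        rw [this, map_smul, LinearMap.smul_apply, RingHom.id_apply] }
  have hj : ∀ v, j v = Φ (E i v) m' := fun v => rfl
  have hequiv : ∀ (f : Module.End k V) (v : V), j (f v) = Φ f (j v) := by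
    intro f v
    rw [hj, hj, ← hcomp, map_mul, Module.End.mul_apply]
  refine ⟨j, ?_, hequiv⟩
  rw [injective_iff_map_eq_zero]
  intro v hv
  by_contra hv0
  have hrepr : ∃ i₀, b.coord i₀ v ≠ 0 := by
    by_contra hcon
    push Not at hcon
    apply hv0
    apply b.ext_elem
    intro i₀
    rw [map_zero, Finsupp.zero_apply]
    exact hcon i₀
  obtain ⟨i₀, hi₀⟩ := hrepr
  set c : k := b.coord i₀ v with hc
  let g : Module.End k V := (c⁻¹ • b.coord i₀).smulRight (b i)
  have hg : g v = b i := by
    show (c⁻¹ • b.coord i₀) v • b i = b i
    rw [LinearMap.smul_apply, ← hc, smul_eq_mul, inv_mul_cancel₀ hi₀, one_smul]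
  have h1 : j (g v) = 0 := by rw [hequiv, hv, map_zero]
  rw [hg, hj, hm'fix] at h1
  exact hi h1

end Morita

end Fermat.Agent.S44
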