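/-
S44, cell [B] BLR (helper18), file 2: A NONZERO EIGENPOINT IN `J₀(N)[p]`.  Prefix `s44b_`.

`s44b_exists_eigenpoint`: `f` a normalised eigenform of level `N`, `𝔪 ∋ p` a maximal ideal of `ℤ̄`,
`a : ℕ → ℤ` with `a_ℓ(f) ≡ a ℓ mod 𝔪` for the primes `ℓ ∤ N`, `ℓ ∉ S`.  Then there is
`0 ≠ z ∈ J₀(N)(ℚ̄)[p]` with `T_ℓ z = a ℓ • z` for all those primes.

Proof: the eigencharacter of `f` modulo `𝔪` extends to the `ℤ_p`-Hecke algebra `𝕋` of the Tate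
module `T_p J₀(N)` (`tjp_eigen_gen`); its kernel `I ∋ p` satisfies `I T_p ≠ T_p` (Nakayama, `𝕋` acts
faithfully), so `T_p / p T_p` contains a nonzero class killed by `I` (`s44b_exists_eigen`); its
first component is `z`.
-/
import Mathlib
import Fermat.Agent.S44.BLR.Alg
import Fermat.Agent.JT3.Tate.Package
import Fermat.Agent.JT3.Pack.Res.Eigenchar

set_option autoImplicit false
set_option linter.unusedSectionVars false
set_option linter.style.haveILetI false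
set_option synthInstance.maxHeartbeats 400000
set_option maxHeartbeats 1000000

noncomputable section

namespace Fermat.Agent.S44

open Fermat.Agent.JT3 ModularCurve CuspForm

/-- the Hecke algebra of the Tate module is commutative -/
theorem s44b_hecke_comm (N p : ℕ) [NeZero N] [Fact p.Prime] (S : Finset ℕ) :
    ∀ a ∈ Algebra.adjoin ℤ_[p] (pk_heckeSet N S (tjp_Tl N p S)),
      ∀ b ∈ Algebra.adjoin ℤ_[p] (pk_heckeSet N S (tjp_Tl N p S)), a * b = b * a := by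
  intro a ha b hb
  have h1 : ∀ s ∈ pk_heckeSet N S (tjp_Tl N p S), Commute a s := fun s hs =>
    (Algebra.commute_of_mem_adjoin_of_forall_mem_commute ha (fun s' hs' => by
      obtain ⟨ℓ, _, rfl⟩ := hs
      obtain ⟨ℓ', _, rfl⟩ := hs'
      exact tjp_Tl_comm N p S ℓ ℓ')).symm
  exact (Algebra.commute_of_mem_adjoin_of_forall_mem_commute hb h1).eq

/-- **a nonzero eigenpoint of `J₀(N)[p]`** for a system of eigenvalues congruent to that of an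
eigenform. -/
theorem s44b_exists_eigenpoint (N p : ℕ) [NeZero N] [Fact p.Prime] (S : Finset ℕ)
    (hNS : ∀ q : ℕ, q.Prime → q ∣ N → q ∈ S)
    {f : CuspForm (CongruenceSubgroup.Gamma0 N) 2} (hf : f.IsNormalizedEigenform)
    (𝔪 : Ideal (integralClosure ℤ ℂ)) (h𝔪 : 𝔪.IsMaximal)
    (hp𝔪 : (p : integralClosure ℤ ℂ) ∈ 𝔪) (a : ℕ → ℤ)
    (hcong : ∀ ℓ : ℕ, ℓ.Prime → ¬ ℓ ∣ N → ℓ ∉ S →
      ∃ c : integralClosure ℤ ℂ, (c : ℂ) = ModularFormClass.qCoeff f ℓ ∧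
        c - ((a ℓ : ℤ) : integralClosure ℤ ℂ) ∈ 𝔪) :
    ∃ z : JZero N, z ≠ 0 ∧ p • z = 0 ∧
      ∀ (ℓ : ℕ) (hℓ : ℓ.Prime), ¬ ℓ ∣ N → ℓ ∉ S →
        heckeOperatorBar N ⟨ℓ, hℓ⟩ z = a ℓ • z := by
  classical
  have hpp : p.Prime := Fact.out
  letI : Field (integralClosure ℤ ℂ ⧸ 𝔪) := Ideal.Quotient.field 𝔪
  haveI hchar : CharP (integralClosure ℤ ℂ ⧸ 𝔪) p := by
    rw [CharP.charP_iff_prime_eq_zero hpp]
    have : ((p : integralClosure ℤ ℂ ⧸ 𝔪)) = Ideal.Quotient.mk 𝔪 (p : integralClosure ℤ ℂ) :=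
      (map_natCast (Ideal.Quotient.mk 𝔪) p).symm
    rw [this, Ideal.Quotient.eq_zero_iff_mem]
    exact hp𝔪
  let φ₀ : ℤ_[p] →+* (integralClosure ℤ ℂ ⧸ 𝔪) :=
    (ZMod.castHom (dvd_refl p) (integralClosure ℤ ℂ ⧸ 𝔪)).comp PadicInt.toZMod
  letI : Algebra ℤ_[p] (integralClosure ℤ ℂ ⧸ 𝔪) := φ₀.toAlgebra
  have hNS' : ∀ q : ℕ, q.Prime → q ∣ N → q ∈ (↑S : Set ℕ) :=
    fun q hq hqN => Finset.mem_coe.mpr (hNS q hq hqN)
  -- the eigencharacter with values in `ℤ̄`, then in `ℤ̄ / 𝔪`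
  let χZ : heckeAlgebra N 2 (↑S : Set ℕ) →+* integralClosure ℤ ℂ :=
    (prs_eigenchar hf (↑S : Set ℕ) hNS').codRestrict (integralClosure ℤ ℂ)
      (prs_eigenchar_isIntegral hf (↑S : Set ℕ) hNS')
  let χ : heckeAlgebra N 2 (↑S : Set ℕ) →+* (integralClosure ℤ ℂ ⧸ 𝔪) :=
    (Ideal.Quotient.mk 𝔪).comp χZ
  obtain ⟨χ₀, hχ₀⟩ := tjp_eigen_gen N p S χ
  have hχT : ∀ (ℓ : ℕ) (hℓ : ℓ.Prime) (hℓN : ¬ ℓ ∣ N) (hℓS : ℓ ∉ (↑S : Set ℕ)),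
      χ₀ ⟨tjp_Tl N p S ℓ, pk_mem_heckeSet (tjp_Tl N p S) hℓ hℓN hℓS⟩ =
        ((a ℓ : ℤ) : integralClosure ℤ ℂ ⧸ 𝔪) := by
    intro ℓ hℓ hℓN hℓS
    rw [hχ₀ ℓ hℓ hℓN hℓS]
    obtain ⟨c, hc, hcm⟩ := hcong ℓ hℓ hℓN (fun h => hℓS (Finset.mem_coe.mpr h))
    have h1 : χZ (heckeAlgebra.T hℓ hℓN hℓS) = c := by
      apply Subtype.ext
      show prs_eigenchar hf (↑S : Set ℕ) hNS' (heckeAlgebra.T hℓ hℓN hℓS) = (c : ℂ)
      rw [prs_eigenchar_T, hc]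
    show Ideal.Quotient.mk 𝔪 (χZ (heckeAlgebra.T hℓ hℓN hℓS)) = _
    rw [h1, ← map_intCast (Ideal.Quotient.mk 𝔪)]
    exact Ideal.Quotient.eq.mpr hcm
  have hπ : algebraMap ℤ_[p] (integralClosure ℤ ℂ ⧸ 𝔪) ((p : ℕ) : ℤ_[p]) = 0 := by
    rw [map_natCast]
    exact CharP.cast_eq_zero _ p
  -- the eigenclass
  obtain ⟨x, hx, hxI⟩ := s44b_exists_eigen
    (Algebra.adjoin ℤ_[p] (pk_heckeSet N S (tjp_Tl N p S))) (s44b_hecke_comm N p S) χ₀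
    ((p : ℕ) : ℤ_[p]) hπ (tm_proj (JZero N) p 1)
    (by
      have hfin : {z : JZero N | p ^ 1 • z = 0}.Finite := Set.finite_coe_iff.mp (tj_finite N p 1)
      refine Set.Finite.subset hfin ?_
      rintro _ ⟨y, rfl⟩
      exact tm_tor y 1)
    (fun y hy => by
      obtain ⟨w, hw⟩ := tm_exists_eq_smul y 1 hy
      exact ⟨w, by rw [hw, pow_one]⟩)
  refine ⟨x.1 1, ?_, ?_, ?_⟩
  · intro h0
    obtain ⟨w, hw⟩ := tm_exists_eq_smul x 1 h0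
    exact hx ⟨w, by rw [hw, pow_one]⟩
  · have := tm_tor x 1
    rwa [pow_one] at this
  · intro ℓ hℓ hℓN hℓS
    have hℓS' : ℓ ∉ (↑S : Set ℕ) := fun h => hℓS (Finset.mem_coe.mp h)
    have hgood : pk_Good N S ℓ := ⟨hℓ, hℓN, hℓS'⟩
    have hmem := pk_mem_heckeSet (tjp_Tl N p S) hℓ hℓN hℓS'
    have hc1 : χ₀ (algebraMap ℤ_[p] (↥(Algebra.adjoin ℤ_[p] (pk_heckeSet N S (tjp_Tl N p S))))
        ((a ℓ : ℤ) : ℤ_[p])) = ((a ℓ : ℤ) : integralClosure ℤ ℂ ⧸ 𝔪) := by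
      rw [AlgHom.commutes]
      exact map_intCast (algebraMap ℤ_[p] (integralClosure ℤ ℂ ⧸ 𝔪)) (a ℓ)
    have ht0 : χ₀ ((⟨tjp_Tl N p S ℓ, hmem⟩ :
        ↥(Algebra.adjoin ℤ_[p] (pk_heckeSet N S (tjp_Tl N p S)))) -
          algebraMap ℤ_[p] _ ((a ℓ : ℤ) : ℤ_[p])) = 0 := by
      rw [map_sub, hχT ℓ hℓ hℓN hℓS', hc1, sub_self]
    obtain ⟨y, hy⟩ := hxI _ ht0
    have h1 : (((⟨tjp_Tl N p S ℓ, hmem⟩ :
        ↥(Algebra.adjoin ℤ_[p] (pk_heckeSet N S (tjp_Tl N p S)))) -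
          algebraMap ℤ_[p] _ ((a ℓ : ℤ) : ℤ_[p]) :
            ↥(Algebra.adjoin ℤ_[p] (pk_heckeSet N S (tjp_Tl N p S)))) :
              Module.End ℤ_[p] (tj_T N p)) x =
        tj_hecke N p ⟨ℓ, hℓ⟩ x - ((a ℓ : ℤ) : ℤ_[p]) • x := by
      rw [AddSubgroupClass.coe_sub, LinearMap.sub_apply, Subalgebra.coe_algebraMap,
        Module.algebraMap_end_apply]
      show tjp_Tl N p S ℓ x - _ = _
      rw [tjp_Tl_good N p S hgood]
    rw [h1] at hy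
    have h2 : (tj_hecke N p ⟨ℓ, hℓ⟩ x - ((a ℓ : ℤ) : ℤ_[p]) • x).1 1 =
        (((p : ℕ) : ℤ_[p]) • y).1 1 := congrArg (fun u : tj_T N p => u.1 1) hy
    rw [tm_sub_apply, tj_hecke_apply, tm_natCast_smul_apply] at h2
    have h3 : p • y.1 1 = 0 := by
      have := tm_tor y 1
      rwa [pow_one] at this
    rw [h3, sub_eq_zero] at h2
    rw [h2, Int.cast_smul_eq_zsmul]
    rfl

end Fermat.Agent.S44
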