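/-
S44, cell [B] BLR (helper18), file 4: THE ASSEMBLY, with the E-side as a hypothesis.  Prefix `s44b_`.

`s44b_blr_of : s44b_ESide_stmt → s44_BLR_stmt`.

`s44b_ESide_stmt` (cell (B-E), helper19): for an integral model `W` with `W[p]` irreducible and an
eigenform `f` of level `N` with `a_ℓ(f) ≡ a_ℓ(W) mod 𝔪` at the good primes, the Frobenius elements
at the good primes have trace `a_ℓ(W)` and determinant `ℓ` on `W[p]`, and the image of Galois spans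
`End (W[p])`.

Proof of `s44b_blr_of`: a nonzero eigenpoint of `J₀(N)[p]` (`s44b_exists_eigenpoint`) makes the
`ZMod p[G_ℚ]`-module `M_E` (`s44b_ME`) nonzero; Chebotarev + Eichler–Shimura (`s44b_hCH`) give the
Cayley–Hamilton hypothesis of Boston–Lenstra–Ribet (`s44bm_copy`), whence an injective equivariant
`W[p] → M_E`; compose with the isomorphism `E[p] ≃ W[p]` of the change of variables (`lrvc_homQ`).
-/
import Mathlib
import Fermat.Agent.S44.Seams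
import Fermat.Agent.S44.BLR.Nonzero
import Fermat.Agent.S44.BLR.JSide
import Fermat.Agent.S44.BLR.MatMod
import Fermat.Agent.S58.Seams
import Fermat.Agent.LR.NonEis.VarChange
import Fermat.Agent.S05.FreySpecifics
import Fermat.Agent.JT3.Pack.Res.S42
import Fermat.Agent.S13.Ladder.Torsion

set_option autoImplicit false
set_option linter.unusedSectionVars false
set_option linter.style.haveILetI false
set_option synthInstance.maxHeartbeats 400000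
set_option maxHeartbeats 1000000

noncomputable section

namespace Fermat.Agent.S44

open Fermat.Agent.JT3 Fermat.Agent.S58 Fermat.Agent.LR Fermat.Agent.S13 ModularCurve
open WeierstrassCurve WeierstrassCurve.Affine WeierstrassCurve.Affine.Point
open scoped WeierstrassCurve.Affine

/-- **(B-E)** the E-side of [B]: Frobenius traces and determinants on `W[p]`, and Burnside. -/
def s44b_ESide_stmt : Prop :=
  ∀ (W : WeierstrassCurve ℤ) (_ : W.Δ ≠ 0) (p : ℕ) [Fact p.Prime] (_ : p ≠ 2)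
    (_ : W.ModRepIsIrreducible p) {N : ℕ} [NeZero N]
    {f : CuspForm (CongruenceSubgroup.Gamma0 N) 2} (_ : f.IsNormalizedEigenform)
    (𝔪 : Ideal (integralClosure ℤ ℂ)) (_ : 𝔪.IsMaximal) (_ : (p : integralClosure ℤ ℂ) ∈ 𝔪)
    (_ : ∀ ℓ : ℕ, ℓ.Prime → W.IsGoodPrimeFor ℓ → ¬ ℓ ∣ N → ℓ ≠ p →
      ∃ a : integralClosure ℤ ℂ, (a : ℂ) = ModularFormClass.qCoeff f ℓ ∧
        a - ((W.apOfModel ℓ : ℤ) : integralClosure ℤ ℂ) ∈ 𝔪),
    (∀ ℓ : ℕ, ℓ.Prime → W.IsGoodPrimeFor ℓ → ¬ ℓ ∣ N → ℓ ≠ p →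
      ∀ A : ValuationSubring s58_Qb, A.LiesOverPrime ℓ → ∀ τ : s58_G, A.IsFrobeniusAt τ ℓ →
        LinearMap.trace (ZMod p) _ (galoisRepModuleEnd (K := s58_Qb) ℚ (s58_WQ W) p τ) =
            ((W.apOfModel ℓ : ℤ) : ZMod p) ∧
          LinearMap.det (galoisRepModuleEnd (K := s58_Qb) ℚ (s58_WQ W) p τ) =
            ((ℓ : ℕ) : ZMod p)) ∧
      Submodule.span (ZMod p) (Set.range (galoisRepModuleEnd (K := s58_Qb) ℚ (s58_WQ W) p)) = ⊤

/-- the isomorphism of a change of variables, restricted to the `p`-torsion -/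
def s44b_torsHom (E W₂ : WeierstrassCurve ℚ) (C₀ : VariableChange ℚ) (hC : C₀ • E = W₂)
    (hΔ : E.Δ ≠ 0) (p : ℕ) :
    Submodule.torsionBy ℤ (E⁄s44_Qb).Point p →+ Submodule.torsionBy ℤ (W₂⁄s44_Qb).Point p where
  toFun x := ⟨lrvc_homQ E W₂ C₀ hC hΔ x, by
    have hx := x.2
    rw [Submodule.mem_torsionBy_iff] at hx ⊢
    rw [← map_zsmul, hx, _root_.map_zero]⟩
  map_zero' := Subtype.ext (_root_.map_zero (lrvc_homQ E W₂ C₀ hC hΔ))
  map_add' x y := Subtype.ext (map_add (lrvc_homQ E W₂ C₀ hC hΔ)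
    (x : (E⁄s44_Qb).Point) (y : (E⁄s44_Qb).Point))

theorem s44b_torsHom_coe (E W₂ : WeierstrassCurve ℚ) (C₀ : VariableChange ℚ) (hC : C₀ • E = W₂)
    (hΔ : E.Δ ≠ 0) (p : ℕ) (x : Submodule.torsionBy ℤ (E⁄s44_Qb).Point p) :
    ((s44b_torsHom E W₂ C₀ hC hΔ p x : Submodule.torsionBy ℤ (W₂⁄s44_Qb).Point p) :
      (W₂⁄s44_Qb).Point) = lrvc_mapQ E W₂ C₀ hC hΔ x := rfl

theorem s44b_torsHom_injective (E W₂ : WeierstrassCurve ℚ) (C₀ : VariableChange ℚ)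
    (hC : C₀ • E = W₂) (hΔ : E.Δ ≠ 0) (p : ℕ) :
    Function.Injective (s44b_torsHom E W₂ C₀ hC hΔ p) := by
  intro x y hxy
  apply Subtype.ext
  apply (lrvc_mapQ_bijective E W₂ C₀ hC hΔ).1
  have := congrArg Subtype.val hxy
  exact this

theorem s44b_torsHom_smul (E W₂ : WeierstrassCurve ℚ) (C₀ : VariableChange ℚ)
    (hC : C₀ • E = W₂) (hΔ : E.Δ ≠ 0) (p : ℕ) (σ : s44_G)
    (x : Submodule.torsionBy ℤ (E⁄s44_Qb).Point p) :
    s44b_torsHom E W₂ C₀ hC hΔ p (σ • x) = σ • s44b_torsHom E W₂ C₀ hC hΔ p x := by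
  apply Subtype.ext
  exact lrvc_mapQ_smul E W₂ C₀ hC hΔ σ x

/-- **[BLR]** from the E-side. -/
theorem s44b_blr_of (hE : s44b_ESide_stmt) : s44_BLR_stmt := by
  classical
  intro P N _ hirr hmod
  obtain ⟨f, W, 𝔪, hf, hW, h𝔪, hp𝔪, hcong⟩ := hmod
  haveI : Fact P.p.Prime := ⟨P.pp⟩
  have hΔE : P.freyCurve.Δ ≠ 0 := Fermat.Agent.S05.freyCurve_Δ_ne_zero P
  haveI : P.freyCurve.IsElliptic := ⟨isUnit_iff_ne_zero.mpr hΔE⟩
  have hΔ : W.Δ ≠ 0 := lrvc_Δ_ne_zero hW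
  have hirrW : W.ModRepIsIrreducible P.p := lrvc_modRepIsIrreducible hW hirr
  have hp2 : P.p ≠ 2 := by have := P.hp5; omega
  have hN0 : N ≠ 0 := NeZero.ne N
  -- the finite set of bad primes
  set S : Finset ℕ := insert P.p (N.primeFactors ∪ W.Δ.natAbs.primeFactors) with hS
  have hpS : P.p ∈ S := Finset.mem_insert_self _ _
  have hNS : ∀ q : ℕ, q.Prime → q ∣ N → q ∈ S := fun q hq hqN =>
    Finset.mem_insert_of_mem (Finset.mem_union_left _ (Nat.mem_primeFactors.mpr ⟨hq, hqN, hN0⟩))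
  have hgood : ∀ ℓ : ℕ, ℓ.Prime → W.IsGoodPrimeFor ℓ → ¬ ℓ ∣ N → ℓ ≠ P.p → ℓ ∉ S := by
    intro ℓ hℓ hℓW hℓN hℓp hℓS
    rcases Finset.mem_insert.mp hℓS with h | h
    · exact hℓp h
    · rcases Finset.mem_union.mp h with h | h
      · exact hℓN (Nat.dvd_of_mem_primeFactors h)
      · exact hℓW (Int.natCast_dvd.mpr (Nat.dvd_of_mem_primeFactors h))
  have hbad : ∀ ℓ : ℕ, ℓ.Prime → ℓ ∉ S → W.IsGoodPrimeFor ℓ ∧ ¬ ℓ ∣ N ∧ ℓ ≠ P.p := by
    intro ℓ hℓ hℓS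
    refine ⟨fun h => hℓS ?_, fun h => hℓS (hNS ℓ hℓ h), fun h => hℓS (h ▸ hpS)⟩
    refine Finset.mem_insert_of_mem (Finset.mem_union_right _ (Nat.mem_primeFactors.mpr
      ⟨hℓ, Int.natCast_dvd.mp h, ?_⟩))
    exact Int.natAbs_ne_zero.mpr hΔ
  set a : ℕ → ℤ := fun ℓ => W.apOfModel ℓ with ha
  -- the nonzero eigenpoint
  obtain ⟨z, hz0, hpz, hTz⟩ := s44b_exists_eigenpoint N P.p S hNS hf 𝔪 h𝔪 hp𝔪 a
    (fun ℓ hℓ hℓN hℓS => hcong ℓ hℓ (hbad ℓ hℓ hℓS).1 hℓN (hbad ℓ hℓ hℓS).2.2)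
  haveI : Nontrivial ↥(s44b_ME N P.p S a) :=
    ⟨⟨⟨z, hpz, hTz⟩, 0, fun h => hz0 (congrArg Subtype.val h)⟩⟩
  -- the E-side
  obtain ⟨hfrobV, hspan⟩ := hE W hΔ P.p hp2 hirrW hf 𝔪 h𝔪 hp𝔪 hcong
  have hΔQ : ((s58_WQ W)⁄s58_Qb).Δ ≠ 0 := by
    show ((W.map (Int.castRingHom ℚ)).map (algebraMap ℚ s58_Qb)).Δ ≠ 0
    rw [WeierstrassCurve.map_Δ, WeierstrassCurve.map_Δ]
    simpa using hΔ
  have hodd : Odd P.p := P.hp_odd
  haveI : Finite (Submodule.torsionBy ℤ ((s58_WQ W)⁄s58_Qb).Point P.p) :=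
    ld_finite_torsionBy (s58_WQ W) hΔQ hodd
  have hlevV : GaloisFactorsThroughFiniteLevel
      (galoisRepModuleEnd (K := s58_Qb) ℚ (s58_WQ W) P.p) := prs_torsion_level (s58_WQ W) P.p
  have hCH := s44b_hCH (N := N) (p := P.p) (S := S) (a := a) hpS hNS
    (galoisRepModuleEnd (K := s58_Qb) ℚ (s58_WQ W) P.p) hlevV
    (fun ℓ hℓ hℓN hℓS A hA τ hτ =>
      hfrobV ℓ hℓ (hbad ℓ hℓ hℓS).1 hℓN (hbad ℓ hℓ hℓS).2.2 A hA τ hτ)
  have hfr : Module.finrank (ZMod P.p) (Submodule.torsionBy ℤ ((s58_WQ W)⁄s58_Qb).Point P.p) = 2 :=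
    ld_finrank_torsionBy (K := s58_Qb) (s58_WQ W) hΔQ hp2
  haveI : Module.Finite (ZMod P.p) (Submodule.torsionBy ℤ ((s58_WQ W)⁄s58_Qb).Point P.p) :=
    Module.finite_of_finrank_pos (by rw [hfr]; norm_num)
  obtain ⟨j, hjinj, hjeq⟩ := s44bm_copy
    (Module.finBasisOfFinrankEq (ZMod P.p) _ hfr)
    (galoisRepModuleEnd (K := s58_Qb) ℚ (s58_WQ W) P.p) (s44b_alpha N P.p S a) hspan hCH
  -- the transfer from the Frey curve to its integral model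
  obtain ⟨C, hC⟩ := hW
  set t := s44b_torsHom P.freyCurve (W.map (Int.castRingHom ℚ)) C hC hΔE P.p with ht
  refine ⟨W, (s44b_ME N P.p S a).subtype.comp (j.toAddMonoidHom.comp t), ⟨C, hC⟩, ?_, ?_, ?_⟩
  · intro x y hxy
    apply s44b_torsHom_injective P.freyCurve (W.map (Int.castRingHom ℚ)) C hC hΔE P.p
    apply hjinj
    apply Subtype.ext
    exact hxy
  · intro σ x
    show ((j (t (σ • x)) : ↥(s44b_ME N P.p S a)) : JZero N) =
      σ • ((j (t x) : ↥(s44b_ME N P.p S a)) : JZero N)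
    rw [ht, s44b_torsHom_smul, ← s44b_alpha_apply, ← hjeq]
    rfl
  · intro ℓ hℓW hℓN hℓp x
    exact (j (t x)).2.2 ℓ ℓ.2 hℓN (hgood ℓ ℓ.2 hℓW hℓN hℓp)

end Fermat.Agent.S44
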