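/-
S44, cell [B] BLR: THE CLOSED TERM.  `s44b_blr : s44_BLR_stmt`
= `s44b_blr_of` (helper18, BLR/MainOf.lean) applied to `s44be_main` (helper19, BLR/ESide.lean).
-/
import Fermat.Agent.S44.BLR.MainOf
import Fermat.Agent.S44.BLR.ESide

set_option autoImplicit false

namespace Fermat.Agent.S44

/-- **[B] BLR**: the Boston–Lenstra–Ribet cell of S44, closed. -/
theorem s44b_blr : s44_BLR_stmt :=
  s44b_blr_of (fun W hΔ p _ hp2 hirr _ _ _ hf 𝔪 h𝔪 hp𝔪 hcong =>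
    s44be_main W hΔ p hp2 hirr hf 𝔪 h𝔪 hp𝔪 hcong)

end Fermat.Agent.S44
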