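import Mathlib
import Fermat.Agent.S58.IrrAbs

/-!
# S44 [B] BLR, pure algebra (helper24): irreducible + odd ⟹ the image spans `End V`

`s44bm_span_top_of_odd` : `F` a field with `2 ≠ 0`, `dim_F V = 2`, `ρ : G →* End_F V` with no
stable line and `c ∈ G` an involution with `det ρ(c) = -1`.  Then the `ρ(g)` span `End_F V`
(Burnside over a field that need not be algebraically closed).  Elementary: in the eigenbasis of
`ρ(c)` the two diagonal idempotents `(1 ± ρ(c))/2` lie in the span, and `E_jj ρ(g) E_ii` is a
nonzero multiple of the matrix unit `E_ji` for a suitable `g`, because the line `F b_i` is not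
stable.
-/

set_option autoImplicit false

namespace Fermat.Agent.S44

open Module

section

variable {F : Type} [Field F] {V : Type*} [AddCommGroup V] [Module F V]

/-- the matrix unit `b j ↦ b i` -/
noncomputable def s44bm_E (b : Basis (Fin 2) F V) (i j : Fin 2) : Module.End F V :=
  (b.coord j).smulRight (b i)

theorem s44bm_E_apply (b : Basis (Fin 2) F V) (i j : Fin 2) (v : V) :
    s44bm_E b i j v = b.repr v j • b i := by
  simp [s44bm_E, LinearMap.smulRight_apply, Basis.coord_apply]

theorem s44bm_E_basis (b : Basis (Fin 2) F V) (i j k : Fin 2) :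
    s44bm_E b i j (b k) = if k = j then b i else 0 := by
  rw [s44bm_E_apply, Basis.repr_self, Finsupp.single_apply]
  split_ifs <;> simp

/-- every endomorphism is a combination of matrix units -/
theorem s44bm_eq_sum_E (b : Basis (Fin 2) F V) (φ : Module.End F V) :
    φ = ∑ i : Fin 2, ∑ j : Fin 2, b.repr (φ (b j)) i • s44bm_E b i j := by
  apply b.ext
  intro k
  simp only [LinearMap.sum_apply, LinearMap.smul_apply, s44bm_E_basis]
  have h1 : ∀ i : Fin 2, (∑ j : Fin 2, b.repr (φ (b j)) i • (if k = j then b i else 0)) =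
      b.repr (φ (b k)) i • b i := by
    intro i
    rw [Finset.sum_eq_single k]
    · rw [if_pos rfl]
    · intro j _ hjk
      rw [if_neg (Ne.symm hjk), smul_zero]
    · intro h; exact absurd (Finset.mem_univ k) h
  rw [Finset.sum_congr rfl fun i _ => h1 i]
  exact (b.sum_repr (φ (b k))).symm

end

section

variable {F : Type} [Field F] {V : Type*} [AddCommGroup V] [Module F V] {G : Type*} [Group G]

/-- **Burnside for an irreducible odd two-dimensional representation** over any field with
`2 ≠ 0`. -/
theorem s44bm_span_top_of_odd (hV : Module.finrank F V = 2) (h2 : (2 : F) ≠ 0)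
    (ρ : G →* Module.End F V)
    (hirr : ∀ W : Submodule F V, (∀ g, ∀ x ∈ W, ρ g x ∈ W) → W = ⊥ ∨ W = ⊤)
    (c : G) (hc : c * c = 1) (hdet : LinearMap.det (ρ c) = -1) :
    Submodule.span F (Set.range ρ) = ⊤ := by
  classical
  have hC2 : ρ c * ρ c = 1 := by rw [← map_mul, hc, map_one]
  obtain ⟨b, hb0, hb1⟩ := Fermat.Agent.S58.s58ia_eigenbasis hV h2 (ρ c) hC2 hdet
  set 𝒜 : Subalgebra F (Module.End F V) := Algebra.adjoin F (Set.range ρ) with h𝒜
  have hsp : Subalgebra.toSubmodule 𝒜 = Submodule.span F (Set.range ρ) := by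
    rw [h𝒜, Algebra.adjoin_eq_span, ← MonoidHom.coe_mrange, Submonoid.closure_eq]
  have hmem : ∀ g, ρ g ∈ 𝒜 := fun g => Algebra.subset_adjoin ⟨g, rfl⟩
  -- the diagonal matrix units
  have hE00 : s44bm_E b 0 0 = (2⁻¹ : F) • (1 + ρ c) := by
    apply b.ext
    intro k
    rw [s44bm_E_basis]
    fin_cases k
    · simp only [Fin.zero_eta, if_true, LinearMap.smul_apply, LinearMap.add_apply,
        Module.End.one_apply, hb0]
      rw [← two_smul F (b 0), smul_smul, inv_mul_cancel₀ h2, one_smul]
    · simp only [Fin.mk_one, LinearMap.smul_apply, LinearMap.add_apply,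
        Module.End.one_apply, hb1]
      rw [if_neg (by decide), add_neg_cancel, smul_zero]
  have hE11 : s44bm_E b 1 1 = (2⁻¹ : F) • (1 - ρ c) := by
    apply b.ext
    intro k
    rw [s44bm_E_basis]
    fin_cases k
    · simp only [Fin.zero_eta, LinearMap.smul_apply, LinearMap.sub_apply,
        Module.End.one_apply, hb0]
      rw [if_neg (by decide), sub_self, smul_zero]
    · simp only [Fin.mk_one, if_true, LinearMap.smul_apply, LinearMap.sub_apply,
        Module.End.one_apply, hb1]
      rw [sub_neg_eq_add, ← two_smul F (b 1), smul_smul, inv_mul_cancel₀ h2, one_smul]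
  have hdiag : ∀ i : Fin 2, s44bm_E b i i ∈ 𝒜 := by
    intro i
    fin_cases i
    · show s44bm_E b 0 0 ∈ 𝒜
      rw [hE00]
      exact 𝒜.smul_mem (𝒜.add_mem 𝒜.one_mem (hmem c)) _
    · show s44bm_E b 1 1 ∈ 𝒜
      rw [hE11]
      exact 𝒜.smul_mem (𝒜.sub_mem 𝒜.one_mem (hmem c)) _
  -- expansion in the basis, for `i ≠ j`
  have hexp : ∀ i j : Fin 2, i ≠ j → ∀ v : V, v = b.repr v i • b i + b.repr v j • b j := by
    intro i j hij v
    have h := (b.sum_repr v).symm
    rw [Fin.sum_univ_two] at h
    fin_cases i <;> fin_cases j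
    · exact absurd rfl hij
    · exact h
    · rw [add_comm]; exact h
    · exact absurd rfl hij
  -- the line `F b_i` is not stable
  have key : ∀ i j : Fin 2, i ≠ j → ∃ g, b.repr (ρ g (b i)) j ≠ 0 := by
    intro i j hij
    by_contra hcon
    push Not at hcon
    have hst : ∀ g, ∀ x ∈ Submodule.span F {b i}, ρ g x ∈ Submodule.span F {b i} := by
      intro g x hx
      obtain ⟨s, rfl⟩ := Submodule.mem_span_singleton.1 hx
      rw [map_smul]
      apply Submodule.smul_mem
      rw [Submodule.mem_span_singleton]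
      refine ⟨b.repr (ρ g (b i)) i, ?_⟩
      conv_rhs => rw [hexp i j hij (ρ g (b i))]
      rw [hcon g, zero_smul, add_zero]
    rcases hirr _ hst with h | h
    · have : b i ∈ Submodule.span F {b i} := Submodule.mem_span_singleton_self _
      rw [h, Submodule.mem_bot] at this
      exact b.ne_zero i this
    · have : b j ∈ Submodule.span F {b i} := by rw [h]; trivial
      obtain ⟨s, hs⟩ := Submodule.mem_span_singleton.1 this
      have h1 := congrArg (fun v => b.repr v j) hs
      simp only [map_smul, Basis.repr_self, Finsupp.smul_apply, Finsupp.single_apply,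
        if_neg hij, if_true, smul_eq_mul, mul_zero] at h1
      exact zero_ne_one h1
  -- the off-diagonal matrix units
  have hoff : ∀ i j : Fin 2, i ≠ j → s44bm_E b j i ∈ 𝒜 := by
    intro i j hij
    obtain ⟨g, hg⟩ := key i j hij
    have hE : s44bm_E b j i =
        (b.repr (ρ g (b i)) j)⁻¹ • (s44bm_E b j j * ρ g * s44bm_E b i i) := by
      apply b.ext
      intro k
      rw [LinearMap.smul_apply, Module.End.mul_apply, Module.End.mul_apply, s44bm_E_basis,
        s44bm_E_basis]
      by_cases hk : k = i
      · rw [if_pos hk, if_pos hk, s44bm_E_apply, smul_smul, inv_mul_cancel₀ hg, one_smul]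
      · rw [if_neg hk, if_neg hk, map_zero, map_zero, smul_zero]
    rw [hE]
    exact 𝒜.smul_mem (𝒜.mul_mem (𝒜.mul_mem (hdiag j) (hmem g)) (hdiag i)) _
  have hall : ∀ i j : Fin 2, s44bm_E b i j ∈ 𝒜 := by
    intro i j
    by_cases hij : i = j
    · subst hij; exact hdiag i
    · exact hoff j i (Ne.symm hij)
  rw [← hsp, eq_top_iff]
  intro φ _
  rw [s44bm_eq_sum_E b φ]
  exact Submodule.sum_mem _ fun i _ => Submodule.sum_mem _ fun j _ =>
    Submodule.smul_mem _ _ (hall i j)

end

end Fermat.Agent.S44
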