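/-
S44 cell [B] BLR, SUB (B3-abs) (helper19).  Prefix `s44bn_`.  Mathlib only.

THE COMMUTATIVE-ALGEBRA CORE OF "`J₀(N)[p][𝔫] ≠ 0`".

* `s44bn_exists_torsion` : a FINITE module `M` over a commutative ring `R` with `I M ≠ M` has a
  nonzero element killed by `I`.
  Proof: the chain `I^k M` stabilises (`M` is Artinian) to `N = I N`; Nakayama gives `t ≡ 1 mod I`
  with `t N = 0`; `t M ≠ 0` (otherwise `M = (1 - t) M ⊆ I M`) and `I^k (t M) = t (I^k M) = 0`; a
  minimal exponent produces a nonzero element killed by `I`.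
* `s44bn_smul_top_ne_top_of_faithful` : Nakayama for a faithful finite module: `I ≠ ⊤ ⟹ I T ≠ T`.
-/
import Mathlib

set_option autoImplicit false

namespace Fermat.Agent.S44

variable {R : Type*} [CommRing R]

/-- a nonzero module killed by a power of `I` has a nonzero element killed by `I`. -/
theorem s44bn_exists_of_pow_smul_eq_bot {M : Type*} [AddCommGroup M] [Module R M] (I : Ideal R)
    (P : Submodule R M) (hP : P ≠ ⊥) (k : ℕ) (hk : I ^ k • P = ⊥) :
    ∃ m ∈ P, m ≠ 0 ∧ ∀ r ∈ I, r • m = 0 := by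
  classical
  -- the least exponent killing `P`
  have hex : ∃ j, I ^ j • P = ⊥ := ⟨k, hk⟩
  set j := Nat.find hex with hj
  have hjP : I ^ j • P = ⊥ := Nat.find_spec hex
  have hj0 : j ≠ 0 := by
    intro h0
    rw [h0, pow_zero, Ideal.one_eq_top, Submodule.top_smul] at hjP
    exact hP hjP
  obtain ⟨i, hi⟩ := Nat.exists_eq_succ_of_ne_zero hj0
  have hiP : I ^ i • P ≠ ⊥ := Nat.find_min hex (by rw [← hj, hi]; exact Nat.lt_succ_self i)
  obtain ⟨m, hm, hm0⟩ := Submodule.exists_mem_ne_zero_of_ne_bot hiP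
  have hle : I ^ i • P ≤ P := Submodule.smul_le_right
  refine ⟨m, hle hm, hm0, fun r hr => ?_⟩
  have h1 : r • m ∈ I • (I ^ i • P) := Submodule.smul_mem_smul hr hm
  rw [← Submodule.mul_smul, ← pow_succ', ← Nat.succ_eq_add_one, ← hi, hjP] at h1
  exact (Submodule.mem_bot R).1 h1

/-- **a finite module with `M / I M ≠ 0` has nonzero `I`-torsion.** -/
theorem s44bn_exists_torsion {M : Type*} [AddCommGroup M] [Module R M] [Finite M] (I : Ideal R)
    (hI : I • (⊤ : Submodule R M) ≠ ⊤) : ∃ m : M, m ≠ 0 ∧ ∀ r ∈ I, r • m = 0 := by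
  classical
  have hart : IsArtinian R M := inferInstance
  have hnoe : IsNoetherian R M := inferInstance
  -- the chain `I^k M` stabilises
  let f : ℕ →o (Submodule R M)ᵒᵈ :=
    { toFun := fun k => OrderDual.toDual (I ^ k • (⊤ : Submodule R M))
      monotone' := by
        intro a b hab
        show I ^ b • (⊤ : Submodule R M) ≤ I ^ a • (⊤ : Submodule R M)
        exact Submodule.smul_mono_left (Ideal.pow_le_pow_right hab) }
  obtain ⟨k, hk⟩ := IsArtinian.monotone_stabilizes f
  have hstab : I ^ (k + 1) • (⊤ : Submodule R M) = I ^ k • (⊤ : Submodule R M) := by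
    have := hk (k + 1) (Nat.le_succ k)
    exact (congrArg OrderDual.ofDual this).symm
  set N : Submodule R M := I ^ k • (⊤ : Submodule R M) with hN
  have hIN : N ≤ I • N := by
    rw [hN, ← Submodule.mul_smul, ← pow_succ', hstab]
  obtain ⟨t, ht1, htN⟩ := Submodule.exists_sub_one_mem_and_smul_eq_zero_of_fg_of_le_smul I N
    (IsNoetherian.noetherian N) hIN
  -- the submodule `t M`
  let tM : Submodule R M := LinearMap.range (LinearMap.lsmul R M t)
  have htM0 : tM ≠ ⊥ := by
    intro h0
    apply hI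
    rw [eq_top_iff]
    intro m _
    have h1 : t • m = 0 := by
      have : t • m ∈ tM := ⟨m, rfl⟩
      rw [h0] at this
      exact (Submodule.mem_bot R).1 this
    have h2 : m = -((t - 1) • m) := by
      rw [sub_smul, one_smul, h1, zero_sub, neg_neg]
    rw [h2]
    exact Submodule.neg_mem _ (Submodule.smul_mem_smul ht1 Submodule.mem_top)
  have hkill : I ^ k • tM = ⊥ := by
    rw [eq_bot_iff]
    rw [Submodule.smul_le]
    rintro r hr _ ⟨m, rfl⟩
    have h1 : r • m ∈ N := Submodule.smul_mem_smul hr Submodule.mem_top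
    have h2 : r • (LinearMap.lsmul R M t) m = t • (r • m) := by
      simp only [LinearMap.lsmul_apply]
      rw [smul_comm]
    rw [h2, htN _ h1]
    exact Submodule.zero_mem _
  obtain ⟨m, -, hm0, hm⟩ := s44bn_exists_of_pow_smul_eq_bot I tM htM0 k hkill
  exact ⟨m, hm0, hm⟩

/-- Nakayama for a faithful finite module: a proper ideal does not fill the module. -/
theorem s44bn_smul_top_ne_top_of_faithful {T : Type*} [AddCommGroup T] [Module R T]
    [Module.Finite R T] (hfaith : ∀ r : R, (∀ x : T, r • x = 0) → r = 0) (I : Ideal R)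
    (hI : I ≠ ⊤) : I • (⊤ : Submodule R T) ≠ ⊤ := by
  intro h
  obtain ⟨t, ht1, htN⟩ := Submodule.exists_sub_one_mem_and_smul_eq_zero_of_fg_of_le_smul I
    (⊤ : Submodule R T) Module.Finite.fg_top (by rw [h])
  have ht0 : t = 0 := hfaith t fun x => htN x Submodule.mem_top
  rw [ht0, zero_sub] at ht1
  exact hI ((Ideal.eq_top_iff_one I).2 (by simpa using I.neg_mem ht1))

end Fermat.Agent.S44
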